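import Fermat.Agent.S27.Frob.Basic

/-!
# Project S27, block FROB, piece CURVE: general facts from `CurveHyp` and `RRPackage`
-/

set_option autoImplicit false

noncomputable section

namespace Fermat.Agent.S27.Frob

open AlgebraicCurve

universe u v

section

variable {κ : Type u} {F : Type v} [Field κ] [Field F] [Algebra κ F]

theorem curve_deg_eq_one (h : BaseHyp κ F) (v : Place κ F) : v.deg = 1 := by
  have hbij : Function.Bijective (algebraMap κ v.ResidueField) :=
    ⟨(algebraMap κ v.ResidueField).injective, h.residue v⟩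
  show Module.finrank κ v.ResidueField = 1
  rw [← Module.finrank_self κ]
  exact ((AlgEquiv.ofBijective (Algebra.ofId κ v.ResidueField) hbij).toLinearEquiv.finrank_eq).symm

theorem curve_degHom_eq_degree (h : BaseHyp κ F) (D : Divisor κ F) :
    AZ.degHom (Place κ F) D = Divisor.degree D := by
  induction D using Finsupp.induction_linear with
  | zero => simp
  | add D E hD hE => rw [map_add, map_add, hD, hE]
  | single v n => simp [AZ.degHom, Divisor.degree_single, curve_deg_eq_one h v]

theorem curve_degHom_nonneg {S : Type*} (E : S →₀ ℤ) (hE : 0 ≤ E) : 0 ≤ AZ.degHom S E := by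
  have : AZ.degHom S E = E.sum fun _ n => n := by
    simp [AZ.degHom, Finsupp.liftAddHom_apply]
    rfl
  rw [this]
  exact Finsupp.sum_nonneg fun s _ => hE s

theorem curve_exists_div (h : BaseHyp κ F) (f : F) (hf : f ≠ 0) :
    ∃ D : Divisor κ F, ∀ v : Place κ F, D v = v.ord f := by
  obtain ⟨D, hD, -⟩ := h.principal.exists_divisor f hf
  exact ⟨D, hD⟩

theorem curve_deg_principal (h : BaseHyp κ F) (D : Divisor κ F)
    (hD : D ∈ Divisor.principal (K := κ) (F := F)) : Divisor.degree D = 0 := by
  obtain ⟨f, hf, hDf⟩ := hD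
  obtain ⟨D', hD', hdeg⟩ := h.principal.exists_divisor f hf
  have : D = D' := Finsupp.ext fun v => by rw [hDf, hD']
  rw [this, hdeg]

/-- multiplication by a nonzero element. -/
def curveMulEquiv (h : F) (hh : h ≠ 0) : F ≃ₗ[κ] F where
  toFun f := f * h
  invFun f := f * h⁻¹
  map_add' := fun a b => add_mul a b h
  map_smul' := fun c a => smul_mul_assoc c a h
  left_inv := fun a => by simp [hh]
  right_inv := fun a => by simp [hh]

theorem curve_mul_mem {D D' : Divisor κ F} {h : F} (hh : h ≠ 0)
    (hD : ∀ v : Place κ F, (D - D') v = v.ord h) {f : F} (hf : f ∈ riemannRochSpace D) :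
    f * h ∈ riemannRochSpace D' := by
  rw [mem_riemannRochSpace_iff] at hf ⊢
  intro v
  rcases eq_or_ne f 0 with rfl | hf0
  · left; simp
  right
  have h1 := (hf v).resolve_left hf0
  have h2 := hD v
  rw [Finsupp.sub_apply] at h2
  rw [v.ord_mul hf0 hh]
  omega

theorem curve_ell_congr (D D' : Divisor κ F)
    (hD : D - D' ∈ Divisor.principal (K := κ) (F := F)) : ell D = ell D' := by
  obtain ⟨h, hh, hDh⟩ := hD
  have hmap : (riemannRochSpace D).map (curveMulEquiv (κ := κ) h hh : F →ₗ[κ] F)
      = riemannRochSpace D' := by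
    apply le_antisymm
    · rintro _ ⟨f, hf, rfl⟩
      exact curve_mul_mem hh hDh hf
    · intro g hg
      refine ⟨g * h⁻¹, ?_, ?_⟩
      · refine curve_mul_mem (D := D') (D' := D) (inv_ne_zero hh) (fun v => ?_) hg
        have := hDh v
        rw [Finsupp.sub_apply] at this ⊢
        rw [v.ord_inv]
        omega
      · show g * h⁻¹ * h = g
        simp [hh]
  unfold ell
  rw [← hmap]
  exact (LinearEquiv.finrank_map_eq (curveMulEquiv (κ := κ) h hh) _).symm

theorem curve_smul_mem (G : SemilinearAut κ F) {D : Divisor κ F} {f : F}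
    (hf : f ∈ riemannRochSpace D) : G • f ∈ riemannRochSpace (G • D) := by
  rw [mem_riemannRochSpace_iff] at hf ⊢
  intro w
  rcases hf (G⁻¹ • w) with rfl | h1
  · left; simp
  right
  rw [SemilinearAut.divisor_smul_apply]
  have h2 := SemilinearAut.ord_smul G (G⁻¹ • w) f
  rw [smul_inv_smul] at h2
  rw [h2]
  exact h1

/-- the additive equivalence `L(D) ≃ L(G • D)`. -/
def curveSmulEquiv (G : SemilinearAut κ F) (D : Divisor κ F) :
    riemannRochSpace D ≃+ riemannRochSpace (G • D) where
  toFun f := ⟨G • (f : F), curve_smul_mem G f.2⟩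
  invFun f := ⟨G⁻¹ • (f : F), by
    have := curve_smul_mem G⁻¹ f.2
    rwa [inv_smul_smul] at this⟩
  left_inv f := Subtype.ext (inv_smul_smul G (f : F))
  right_inv f := Subtype.ext (smul_inv_smul G (f : F))
  map_add' f g := Subtype.ext (smul_add G (f : F) (g : F))

theorem curve_ell_smul (G : SemilinearAut κ F) (D : Divisor κ F) : ell (G • D) = ell D := by
  unfold ell Module.finrank
  congr 1
  refine (rank_eq_of_equiv_equiv (SemilinearAut.baseAut G) (curveSmulEquiv G D)
    (SemilinearAut.baseAut G).bijective fun r m => ?_).symm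
  apply Subtype.ext
  show G • (r • (m : F)) = SemilinearAut.baseAut G r • (G • (m : F))
  rw [Algebra.smul_def, Algebra.smul_def, smul_mul', SemilinearAut.smul_algebraMap]

theorem curve_ell_pos_iff (h : BaseHyp κ F)
    (hfin : ∀ D : Divisor κ F, Module.Finite κ (riemannRochSpace D)) (D : Divisor κ F) :
    0 < ell D ↔ ∃ E : Divisor κ F, 0 ≤ E ∧ E - D ∈ Divisor.principal (K := κ) (F := F) := by
  have := hfin D
  constructor
  · intro hpos
    have hnt : Nontrivial (riemannRochSpace D) := Module.finrank_pos_iff.mp hpos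
    obtain ⟨f, hf⟩ := exists_ne (0 : riemannRochSpace D)
    have hf0 : (f : F) ≠ 0 := fun h0 => hf (Subtype.ext h0)
    obtain ⟨Df, hDf⟩ := curve_exists_div h (f : F) hf0
    refine ⟨D + Df, fun v => ?_, ⟨(f : F), hf0, fun v => ?_⟩⟩
    · have h1 := ((mem_riemannRochSpace_iff.mp f.2) v).resolve_left hf0
      rw [Finsupp.add_apply, hDf]
      simp only [Finsupp.coe_zero, Pi.zero_apply]
      omega
    · rw [add_sub_cancel_left, hDf]
  · rintro ⟨E, hE, f, hf0, hf⟩
    have hmem : f ∈ riemannRochSpace D := by
      rw [mem_riemannRochSpace_iff]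
      intro v
      right
      have h1 := hf v
      rw [Finsupp.sub_apply] at h1
      have h2 : 0 ≤ E v := hE v
      omega
    have hnt : Nontrivial (riemannRochSpace D) :=
      ⟨⟨⟨f, hmem⟩, 0, fun h0 => hf0 (congrArg Subtype.val h0)⟩⟩
    exact Module.finrank_pos

theorem curve_ell_eq_zero (h : BaseHyp κ F)
    (hfin : ∀ D : Divisor κ F, Module.Finite κ (riemannRochSpace D)) (D : Divisor κ F)
    (hD : Divisor.degree D < 0) : ell D = 0 := by
  by_contra hne
  obtain ⟨E, hE, hED⟩ := (curve_ell_pos_iff h hfin D).mp (Nat.pos_of_ne_zero hne)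
  have h1 := curve_deg_principal h _ hED
  rw [map_sub] at h1
  have h2 := curve_degHom_nonneg E hE
  rw [curve_degHom_eq_degree h] at h2
  omega

theorem curve_const (hRR : RRPackage κ F) (f : F) (_hf : f ≠ 0)
    (hord : ∀ v : Place κ F, v.ord f = 0) : ∃ a : κ, f = algebraMap κ F a := by
  have h1 : ell (0 : Divisor κ F) = 1 := by
    have := hRR.riemann 0
    rw [map_zero] at this
    unfold genusFF at this
    omega
  have hone : (1 : F) ∈ riemannRochSpace (0 : Divisor κ F) := by
    rw [mem_riemannRochSpace_iff]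
    intro v
    right
    simp
  have hfm : f ∈ riemannRochSpace (0 : Divisor κ F) := by
    rw [mem_riemannRochSpace_iff]
    intro v
    right
    simp [hord v]
  have hne : (⟨1, hone⟩ : riemannRochSpace (0 : Divisor κ F)) ≠ 0 :=
    fun h0 => one_ne_zero (congrArg Subtype.val h0)
  obtain ⟨c, hc⟩ := (finrank_eq_one_iff_of_nonzero' _ hne).mp h1 ⟨f, hfm⟩
  refine ⟨c, ?_⟩
  have := congrArg Subtype.val hc
  simp only [Submodule.coe_smul] at this
  rw [← this, Algebra.smul_def, mul_one]

end

theorem stmtCurve : StmtCurve.{u, v} := by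
  intro κ F _ _ _ h hRR
  exact
    { deg_eq := curve_degHom_eq_degree h.toBaseHyp
      exists_div := curve_exists_div h.toBaseHyp
      deg_principal := curve_deg_principal h.toBaseHyp
      ell_congr := curve_ell_congr
      ell_smul := curve_ell_smul
      ell_pos_iff := curve_ell_pos_iff h.toBaseHyp hRR.finite_L
      ell_eq_zero := curve_ell_eq_zero h.toBaseHyp hRR.finite_L
      rr := by
        obtain ⟨W, hW⟩ := hRR.duality
        exact ⟨W, fun D => by rw [← hW D]; exact hRR.riemann D⟩
      const := curve_const hRR }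

end Fermat.Agent.S27.Frob
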