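import Fermat.Agent.S27.Frob.Basic

/-!
# Project S27, block FROB, piece DENSEP

`F = Frac R` and `R` separates the finite places, from the Riemann-Roch facts.
-/

set_option autoImplicit false

noncomputable section

namespace Fermat.Agent.S27.Frob

open AlgebraicCurve

universe u v

section

variable {κ : Type u} {F : Type v} [Field κ] [Field F] [Algebra κ F] {s : Shape}

theorem denSep_degree_single (hC : CurveFacts κ F) (v : Place κ F) (n : ℤ) :
    Divisor.degree (Finsupp.single v n : Divisor κ F) = n := by
  rw [← hC.deg_eq]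
  simp [AZ.degHom]

/-- Riemann's inequality gives functions with prescribed poles. -/
theorem denSep_exists (hC : CurveFacts κ F) (D : Divisor κ F)
    (hD : (genusFF κ F : ℤ) ≤ Divisor.degree D) :
    ∃ g : F, g ≠ 0 ∧ ∀ v : Place κ F, - D v ≤ v.ord g := by
  obtain ⟨W, hW⟩ := hC.rr
  have h1 := hW D
  have h2 : 0 < ell D := by
    have : (0 : ℤ) ≤ (ell (W - D) : ℤ) := Int.natCast_nonneg _
    have h3 : (0 : ℤ) < (ell D : ℤ) := by omega
    exact_mod_cast h3
  obtain ⟨E, hE, g, hg, hgE⟩ := (hC.ell_pos_iff D).1 h2
  refine ⟨g, hg, fun v => ?_⟩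
  have h4 := hgE v
  rw [Finsupp.sub_apply] at h4
  have h5 : 0 ≤ E v := hE v
  omega

theorem denSep_hasDenominators (hC : CurveFacts κ F) (M : OnePointModel κ F s) :
    HasDenominators M := by
  classical
  intro f
  rcases eq_or_ne f 0 with rfl | hf
  · refine ⟨1, one_ne_zero, fun v _ => ?_, fun v _ => ?_⟩
    · simp
    · simp
  obtain ⟨Df, hDf⟩ := hC.exists_div f hf
  set P : Divisor κ F := Df.mapRange (fun n => max 0 (-n)) (by simp) with hP
  set D : Divisor κ F :=
    Finsupp.single M.inf (Divisor.degree P + (genusFF κ F : ℤ)) - P with hD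
  have hdeg : (genusFF κ F : ℤ) ≤ Divisor.degree D := by
    rw [hD, map_sub, denSep_degree_single hC]
    omega
  obtain ⟨g, hg, hgD⟩ := denSep_exists hC D hdeg
  have key : ∀ v : Place κ F, v ≠ M.inf → max 0 (- v.ord f) ≤ v.ord g := by
    intro v hv
    have h1 := hgD v
    rw [hD, Finsupp.sub_apply, Finsupp.single_apply, if_neg (Ne.symm hv), hP,
      Finsupp.mapRange_apply, hDf v] at h1
    omega
  refine ⟨g, hg, fun v hv => ?_, fun v hv => ?_⟩
  · exact le_trans (le_max_left _ _) (key v hv)
  · rw [v.ord_mul hg hf]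
    have h1 := key v hv
    have h2 : - v.ord f ≤ max 0 (- v.ord f) := le_max_right _ _
    omega

theorem denSep_separates (hC : CurveFacts κ F) (M : OnePointModel κ F s) : Separates M := by
  classical
  intro v w hv hw hvw
  obtain ⟨W, hW⟩ := hC.rr
  set N : ℤ := Divisor.degree W + 3 with hN
  set D : Divisor κ F := Finsupp.single M.inf N - Finsupp.single v 1 with hD
  set D' : Divisor κ F := D - Finsupp.single w 1 with hD'
  have hdegD : Divisor.degree D = N - 1 := by
    rw [hD, map_sub, denSep_degree_single hC, denSep_degree_single hC]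
  have hdegD' : Divisor.degree D' = N - 2 := by
    rw [hD', map_sub, hdegD, denSep_degree_single hC]
    ring
  have h0 : ell (W - D) = 0 := by
    apply hC.ell_eq_zero
    rw [map_sub, hdegD]
    omega
  have h0' : ell (W - D') = 0 := by
    apply hC.ell_eq_zero
    rw [map_sub, hdegD']
    omega
  have h1 := hW D
  have h1' := hW D'
  rw [h0, hdegD] at h1
  rw [h0', hdegD'] at h1'
  have hne : ell D ≠ ell D' := by
    intro h
    rw [h] at h1
    omega
  have hex : ∃ f : F, f ∈ riemannRochSpace D ∧ f ∉ riemannRochSpace D' := by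
    by_contra hcon
    push_neg at hcon
    apply hne
    have hle : riemannRochSpace D' ≤ riemannRochSpace D := by
      intro f hf
      rw [mem_riemannRochSpace_iff] at hf ⊢
      intro u
      rcases hf u with h | h
      · exact Or.inl h
      · right
        rw [hD', Finsupp.sub_apply] at h
        have : (0 : ℤ) ≤ (Finsupp.single w (1 : ℤ) : Divisor κ F) u := by
          rw [Finsupp.single_apply]
          split_ifs <;> norm_num
        omega
    have heq : riemannRochSpace D = riemannRochSpace D' := le_antisymm hcon hle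
    unfold ell
    rw [heq]
  obtain ⟨f, hfD, hfD'⟩ := hex
  have hf0 : f ≠ 0 := by
    rintro rfl
    exact hfD' (Submodule.zero_mem _)
  rw [mem_riemannRochSpace_iff] at hfD hfD'
  have hfD2 : ∀ u : Place κ F, - D u ≤ u.ord f := fun u => (hfD u).resolve_left hf0
  push_neg at hfD'
  obtain ⟨u, -, hu⟩ := hfD'
  have huw : u = w := by
    by_contra hne'
    have h2 := hfD2 u
    rw [hD', Finsupp.sub_apply, Finsupp.single_apply, if_neg (Ne.symm hne')] at hu
    omega
  subst huw
  refine ⟨f, fun z hz => ?_, ?_, ?_⟩
  · have h2 := hfD2 z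
    rw [hD, Finsupp.sub_apply, Finsupp.single_apply, if_neg (Ne.symm hz)] at h2
    have : (0 : ℤ) ≤ (Finsupp.single v (1 : ℤ) : Divisor κ F) z := by
      rw [Finsupp.single_apply]
      split_ifs <;> norm_num
    omega
  · have h2 := hfD2 v
    rw [hD, Finsupp.sub_apply, Finsupp.single_apply, if_neg (Ne.symm hv),
      Finsupp.single_eq_same] at h2
    omega
  · have h2 := hfD2 u
    rw [hD', Finsupp.sub_apply, Finsupp.single_eq_same] at hu
    rw [hD, Finsupp.sub_apply, Finsupp.single_apply, if_neg (Ne.symm hw),
      Finsupp.single_apply, if_neg hvw] at h2 hu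
    omega

end

theorem stmtDenSep : StmtDenSep.{u, v} := by
  intro κ F _ _ _ s hC M
  exact ⟨denSep_hasDenominators hC M, denSep_separates hC M⟩

end Fermat.Agent.S27.Frob
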