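import Fermat.Agent.S27.Frob.Basic

/-!
# Project S27, block FROB, piece COUNT

Stable effective divisors in a stable class: `(Q - 1) * #{E ≥ 0, G E = E, E ∼ D} = Q ^ ℓ(D) - 1`.
-/

set_option autoImplicit false

noncomputable section

namespace Fermat.Agent.S27.Frob

open AlgebraicCurve

universe u v

section count

variable {κ : Type u} {F : Type v} [Field κ] [Field F] [Algebra κ F]

theorem count_ord_smul (G : SemilinearAut κ F) (v : Place κ F) (f : F) :
    v.ord (G • f) = (G⁻¹ • v).ord f := by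
  have h := SemilinearAut.ord_smul G (G⁻¹ • v) f
  rwa [smul_inv_smul] at h

theorem count_smul_ne_zero (G : SemilinearAut κ F) {f : F} (hf : f ≠ 0) : G • f ≠ 0 := by
  simpa using hf

/-- two functions with the same divisor differ by a nonzero constant. -/
theorem count_const (hC : CurveFacts κ F) {f g : F} (hf : f ≠ 0) (hg : g ≠ 0)
    (h : ∀ v : Place κ F, v.ord f = v.ord g) :
    ∃ a : κ, a ≠ 0 ∧ f = algebraMap κ F a * g := by
  obtain ⟨a, ha⟩ := hC.const (f / g) (div_ne_zero hf hg) (fun v => by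
    rw [div_eq_mul_inv, v.ord_mul hf (inv_ne_zero hg), v.ord_inv, h v]; ring)
  refine ⟨a, ?_, ?_⟩
  · rintro rfl
    rw [map_zero] at ha
    exact div_ne_zero hf hg ha
  · rw [← ha, div_mul_cancel₀ _ hg]

theorem count_ord_const_mul (v : Place κ F) {a : κ} (ha : a ≠ 0) {f : F} (hf : f ≠ 0) :
    v.ord (algebraMap κ F a * f) = v.ord f := by
  rw [v.ord_mul (by simpa using ha) hf, ord_algebraMap, zero_add]

theorem count_T_const_mul (G : SemilinearAut κ F) (Q : ℕ)
    (hbase : ∀ a : κ, SemilinearAut.baseAut G a = a ^ Q) (h : F) (a : κ) (f : F) :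
    h * G • (algebraMap κ F a * f) = algebraMap κ F (a ^ Q) * (h * G • f) := by
  rw [smul_mul', SemilinearAut.smul_algebraMap, hbase]
  ring

theorem count_ord_T (G : SemilinearAut κ F) (D : Divisor κ F) {h : F} (hh : h ≠ 0)
    (hD : ∀ v : Place κ F, (G • D - D) v = v.ord h) {f : F} (hf : f ≠ 0) (v : Place κ F) :
    v.ord (h * G • f) = (G • D) v - D v + (G⁻¹ • v).ord f := by
  rw [v.ord_mul hh (count_smul_ne_zero G hf), count_ord_smul, ← hD v, Finsupp.sub_apply]

theorem count_T_mem (G : SemilinearAut κ F) (D : Divisor κ F) {h : F} (hh : h ≠ 0)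
    (hD : ∀ v : Place κ F, (G • D - D) v = v.ord h) {f : F} (hf : f ∈ riemannRochSpace D) :
    h * G • f ∈ riemannRochSpace D := by
  rw [mem_riemannRochSpace_iff] at hf ⊢
  intro v
  rcases eq_or_ne f 0 with rfl | hf0
  · left; simp
  · right
    rw [count_ord_T G D hh hD hf0 v, SemilinearAut.divisor_smul_apply]
    rcases hf (G⁻¹ • v) with h0 | h1
    · exact absurd h0 hf0
    · omega

/-- the semilinear operator `f ↦ h * G f` on `L(D)`. -/
def countT (G : SemilinearAut κ F) (D : Divisor κ F) (h : F)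
    (hmem : ∀ f ∈ riemannRochSpace D, h * G • f ∈ riemannRochSpace D) :
    riemannRochSpace D →+ riemannRochSpace D where
  toFun f := ⟨h * G • (f : F), hmem _ f.2⟩
  map_zero' := by ext; simp
  map_add' x y := by ext; simp [mul_add]

theorem count_mem_of_div {D E : Divisor κ F} (hE : 0 ≤ E) {f : F}
    (hf : ∀ v : Place κ F, (E - D) v = v.ord f) : f ∈ riemannRochSpace D := by
  rw [mem_riemannRochSpace_iff]
  intro v
  right
  rw [← hf v, Finsupp.sub_apply]
  have := Finsupp.le_def.mp hE v
  simp only [Finsupp.coe_zero, Pi.zero_apply] at this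
  omega

theorem count_exists_sig [IsAlgClosed κ] (hC : CurveFacts κ F) (G : SemilinearAut κ F) (Q : ℕ)
    (hQ : 1 < Q) (hbase : ∀ a : κ, SemilinearAut.baseAut G a = a ^ Q)
    (D : Divisor κ F) {h : F} (hh : h ≠ 0)
    (hD : ∀ v : Place κ F, (G • D - D) v = v.ord h) (E : Divisor κ F) (hGE : G • E = E)
    (hE : E - D ∈ Divisor.principal (K := κ) (F := F)) :
    ∃ f : F, f ≠ 0 ∧ (∀ v : Place κ F, (E - D) v = v.ord f) ∧ h * G • f = f := by
  obtain ⟨f0, hf0, hEf⟩ := hE
  have hTne : h * G • f0 ≠ 0 := mul_ne_zero hh (count_smul_ne_zero G hf0)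
  obtain ⟨c, hc0, hc⟩ := count_const hC hTne hf0 (fun v => by
    rw [count_ord_T G D hh hD hf0 v, ← hEf, ← hEf, Finsupp.sub_apply, Finsupp.sub_apply,
      ← SemilinearAut.divisor_smul_apply, ← SemilinearAut.divisor_smul_apply, hGE]
    ring)
  obtain ⟨a, ha⟩ := IsAlgClosed.exists_pow_nat_eq c⁻¹ (n := Q - 1) (by omega)
  have ha0 : a ≠ 0 := by
    rintro rfl
    rw [zero_pow (by omega)] at ha
    exact inv_ne_zero hc0 ha.symm
  refine ⟨algebraMap κ F a * f0, mul_ne_zero (by simpa using ha0) hf0, fun v => ?_, ?_⟩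
  · rw [count_ord_const_mul v ha0 hf0, hEf]
  · rw [count_T_const_mul G Q hbase, hc, ← mul_assoc, ← map_mul]
    have : a ^ Q * c = a := by
      have hQ' : Q = (Q - 1) + 1 := by omega
      rw [hQ', pow_succ, ha]
      field_simp
    rw [this]

end count

theorem stmtCount (hL : StmtLang.{u, v}) : StmtCount.{u, v} := by
  intro p κ F _ _ _ _ _ hp hκ hfin hC G Q hQ hbase D hD
  classical
  obtain ⟨h, hh, hDh⟩ := hD
  have hQ1 : 1 < Q := by
    obtain ⟨k, hk, rfl⟩ := hQ
    exact Nat.one_lt_pow hk.ne' hp.one_lt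
  have hQ0 : Q ≠ 0 := by omega
  have := hfin D
  set T := countT G D h (fun f hf => count_T_mem G D hh hDh hf) with hT
  have hTval : ∀ w : riemannRochSpace D, ((T w : riemannRochSpace D) : F) = h * G • (w : F) :=
    fun _ => rfl
  have hcard : Nat.card {w : riemannRochSpace D // T w = w} = Q ^ ell D := by
    refine hL p κ (riemannRochSpace D) hp hκ Q hQ T ?_ ?_
    · intro a w
      apply Subtype.ext
      rw [hTval, Submodule.coe_smul, Submodule.coe_smul, hTval, Algebra.smul_def,
        Algebra.smul_def, count_T_const_mul G Q hbase]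
    · intro x y hxy
      have h1 := congrArg Subtype.val hxy
      rw [hTval, hTval] at h1
      have h2 := mul_left_cancel₀ hh h1
      exact Subtype.ext (MulAction.injective G h2)
  -- remove zero
  have hfinT : Finite {w : riemannRochSpace D // T w = w} :=
    Nat.finite_of_card_ne_zero (by rw [hcard]; exact pow_ne_zero _ hQ0)
  have hcardX : Nat.card {f : F // f ∈ riemannRochSpace D ∧ h * G • f = f ∧ f ≠ 0}
      = Q ^ ell D - 1 := by
    have e : {f : F // f ∈ riemannRochSpace D ∧ h * G • f = f ∧ f ≠ 0} ≃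
        {b : {w : riemannRochSpace D // T w = w} // b ≠ ⟨0, map_zero T⟩} :=
      { toFun := fun f => ⟨⟨⟨f.1, f.2.1⟩, Subtype.ext f.2.2.1⟩,
          fun hf => f.2.2.2 (congrArg (fun z => ((z.1 : riemannRochSpace D) : F)) hf)⟩
        invFun := fun b => ⟨b.1.1.1, b.1.1.2, congrArg Subtype.val b.1.2,
          fun hb => b.2 (Subtype.ext (Subtype.ext hb))⟩
        left_inv := fun _ => rfl
        right_inv := fun _ => rfl }
    cases nonempty_fintype {w : riemannRochSpace D // T w = w}
    rw [Nat.card_congr e, Nat.card_eq_fintype_card, Fintype.card_subtype_compl,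
      Fintype.card_subtype_eq, ← Nat.card_eq_fintype_card, hcard]
  -- the section
  have hsig : ∀ E : {E : Divisor κ F //
      0 ≤ E ∧ G • E = E ∧ E - D ∈ Divisor.principal (K := κ) (F := F)},
      ∃ f : F, f ≠ 0 ∧ (∀ v : Place κ F, (E.1 - D) v = v.ord f) ∧ h * G • f = f :=
    fun E => count_exists_sig hC G Q hQ1 hbase D hh hDh E.1 E.2.2.1 E.2.2.2
  choose sig hsig0 hsigord hsigT using hsig
  let Φ : {E : Divisor κ F // 0 ≤ E ∧ G • E = E ∧ E - D ∈ Divisor.principal (K := κ) (F := F)}
      × {a : κ // a ≠ 0 ∧ a ^ Q = a} →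
      {f : F // f ∈ riemannRochSpace D ∧ h * G • f = f ∧ f ≠ 0} := fun x =>
    ⟨algebraMap κ F x.2.1 * sig x.1,
      count_mem_of_div x.1.2.1 (fun v => by
        rw [count_ord_const_mul v x.2.2.1 (hsig0 x.1), hsigord]),
      by rw [count_T_const_mul G Q hbase, hsigT, x.2.2.2],
      mul_ne_zero (by simpa using x.2.2.1) (hsig0 x.1)⟩
  have hΦ : Function.Bijective Φ := by
    constructor
    · rintro ⟨E, b⟩ ⟨E', b'⟩ hEE
      have h1 : algebraMap κ F b.1 * sig E = algebraMap κ F b'.1 * sig E' :=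
        congrArg Subtype.val hEE
      have hE : E = E' := by
        apply Subtype.ext
        ext v
        have h2 := congrArg v.ord h1
        rw [count_ord_const_mul v b.2.1 (hsig0 E), count_ord_const_mul v b'.2.1 (hsig0 E'),
          ← hsigord, ← hsigord, Finsupp.sub_apply, Finsupp.sub_apply] at h2
        omega
      subst hE
      have h3 := mul_right_cancel₀ (hsig0 E) h1
      have h4 : b = b' := Subtype.ext ((algebraMap κ F).injective h3)
      rw [h4]
    · rintro ⟨f, hfL, hfT, hf0⟩
      obtain ⟨Df, hDf⟩ := hC.exists_div f hf0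
      have hE0 : 0 ≤ D + Df := by
        rw [Finsupp.le_def]
        intro v
        rw [Finsupp.add_apply, hDf]
        rcases (mem_riemannRochSpace_iff.mp hfL) v with h0 | h1
        · exact absurd h0 hf0
        · simp only [Finsupp.coe_zero, Pi.zero_apply]
          omega
      have hGE : G • (D + Df) = D + Df := by
        ext v
        rw [SemilinearAut.divisor_smul_apply, Finsupp.add_apply, Finsupp.add_apply, hDf, hDf]
        have h1 := count_ord_T G D hh hDh hf0 v
        rw [hfT, SemilinearAut.divisor_smul_apply] at h1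
        omega
      have hpr : D + Df - D ∈ Divisor.principal (K := κ) (F := F) :=
        ⟨f, hf0, fun v => by rw [add_sub_cancel_left, hDf]⟩
      obtain ⟨b, hb0, hb⟩ := count_const hC hf0 (hsig0 ⟨D + Df, hE0, hGE, hpr⟩) (fun v => by
        rw [← hsigord, add_sub_cancel_left, hDf])
      have hbQ : b ^ Q = b := by
        have h1 := hfT
        rw [hb, count_T_const_mul G Q hbase, hsigT] at h1
        exact (algebraMap κ F).injective (mul_right_cancel₀ (hsig0 _) h1)
      exact ⟨(⟨D + Df, hE0, hGE, hpr⟩, ⟨b, hb0, hbQ⟩), Subtype.ext hb.symm⟩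
  rw [← hcardX, ← Nat.card_congr (Equiv.ofBijective Φ hΦ), Nat.card_prod,
    card_pow_eq_self_ne_zero p hp Q hQ, mul_comm]

end Fermat.Agent.S27.Frob
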