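import Fermat.Agent.S27.Frob.Basic

/-!
# Project S27, block FROB, piece FIX: fixed places of the Frobenius
-/

set_option autoImplicit false

noncomputable section

namespace Fermat.Agent.S27.Frob

open AlgebraicCurve

universe u v

section fix

variable {κ : Type u} {F : Type v} [Field κ] [Field F] [Algebra κ F] {s : Shape}

/-- "`f(v) = a`". -/
def FixCong (v : Place κ F) (f : F) (a : κ) : Prop :=
  v.adicValuation (f - algebraMap κ F a) < 1

theorem fix_mem_maximalIdeal_iff (v : Place κ F) (z : v.toValuationSubring) :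
    z ∈ IsLocalRing.maximalIdeal v.toValuationSubring ↔ v.adicValuation (z : F) < 1 := by
  rw [v.adicValuation_coe, IsDedekindDomain.HeightOneSpectrum.intValuation_lt_one_iff_mem,
    Place.heightOneSpectrum_asIdeal]

theorem fix_mem_of_adicValuation_le_one (v : Place κ F) {f : F} (hf : v.adicValuation f ≤ 1) :
    f ∈ v.toValuationSubring := by
  by_contra hmem
  have hinv : f⁻¹ ∈ v.toValuationSubring := (v.toValuationSubring.mem_or_inv_mem f).resolve_left hmem
  have hf0 : f ≠ 0 := fun h => hmem (h ▸ v.toValuationSubring.zero_mem)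
  have hnu : (⟨f⁻¹, hinv⟩ : v.toValuationSubring) ∈ IsLocalRing.maximalIdeal v.toValuationSubring := by
    rw [IsLocalRing.mem_maximalIdeal, mem_nonunits_iff]
    intro hu
    obtain ⟨b, hb⟩ := hu.exists_right_inv
    have hb' : f⁻¹ * (b : F) = 1 := by
      have h := congrArg Subtype.val hb
      simpa using h
    have hbf : (b : F) = f := by
      field_simp at hb'
      exact hb'
    exact hmem (hbf ▸ b.2)
  rw [fix_mem_maximalIdeal_iff] at hnu
  simp only [map_inv₀] at hnu
  have h0 : v.adicValuation f ≠ 0 := v.adicValuation_ne_zero hf0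
  have h1 : 1 < v.adicValuation f := by
    rwa [inv_lt_one₀ (zero_lt_iff.mpr h0)] at hnu
  exact absurd hf (not_le.mpr h1)

theorem FixCong.exists_of_le_one (hB : BaseHyp κ F) (v : Place κ F) {f : F}
    (hf : v.adicValuation f ≤ 1) : ∃ a : κ, FixCong v f a := by
  have hmem := fix_mem_of_adicValuation_le_one v hf
  obtain ⟨a, ha⟩ := hB.residue v (IsLocalRing.residue _ ⟨f, hmem⟩)
  refine ⟨a, ?_⟩
  have h1 : IsLocalRing.residue v.toValuationSubring
      ((⟨f, hmem⟩ : v.toValuationSubring) - algebraMap κ v.toValuationSubring a) = 0 := by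
    rw [map_sub, ← ha]
    exact sub_self _
  rw [IsLocalRing.residue_eq_zero_iff, fix_mem_maximalIdeal_iff] at h1
  exact h1

theorem fix_adicValuation_algebraMap (v : Place κ F) {a : κ} (ha : a ≠ 0) :
    v.adicValuation (algebraMap κ F a) = 1 := by
  have h0 : algebraMap κ F a ≠ 0 := by simpa using ha
  rw [v.adicValuation_eq_exp_neg_ord h0, ord_algebraMap]
  simp

theorem FixCong.unique {v : Place κ F} {f : F} {a b : κ} (ha : FixCong v f a)
    (hb : FixCong v f b) : a = b := by
  by_contra hne
  have h1 : v.adicValuation (algebraMap κ F (a - b)) < 1 := by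
    have : algebraMap κ F (a - b) = (f - algebraMap κ F b) - (f - algebraMap κ F a) := by
      rw [map_sub]; ring
    rw [this]
    exact Valuation.map_sub_lt _ hb ha
  rw [fix_adicValuation_algebraMap v (sub_ne_zero.mpr hne)] at h1
  exact lt_irrefl _ h1

theorem FixCong.const (v : Place κ F) (a : κ) : FixCong v (algebraMap κ F a) a := by
  simp [FixCong]

theorem FixCong.le_one {v : Place κ F} {f : F} {a : κ} (h : FixCong v f a) :
    v.adicValuation f ≤ 1 := by
  have : f = (f - algebraMap κ F a) + algebraMap κ F a := by ring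
  rw [this]
  exact Valuation.map_add_le _ h.le (v.adicValuation_algebraMap_le_one a)

theorem FixCong.add {v : Place κ F} {f g : F} {a b : κ} (hf : FixCong v f a)
    (hg : FixCong v g b) : FixCong v (f + g) (a + b) := by
  have : f + g - algebraMap κ F (a + b) = (f - algebraMap κ F a) + (g - algebraMap κ F b) := by
    rw [map_add]; ring
  unfold FixCong
  rw [this]
  exact Valuation.map_add_lt _ hf hg

theorem FixCong.mul {v : Place κ F} {f g : F} {a b : κ} (hf : FixCong v f a)
    (hg : FixCong v g b) : FixCong v (f * g) (a * b) := by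
  have : f * g - algebraMap κ F (a * b) =
      (f - algebraMap κ F a) * g + algebraMap κ F a * (g - algebraMap κ F b) := by
    rw [map_mul]; ring
  unfold FixCong
  rw [this]
  refine Valuation.map_add_lt _ ?_ ?_
  · rw [map_mul]
    exact lt_of_le_of_lt (mul_le_of_le_one_right' hg.le_one) hf
  · rw [map_mul]
    exact lt_of_le_of_lt (mul_le_of_le_one_left' (v.adicValuation_algebraMap_le_one a)) hg

theorem FixCong.pow {v : Place κ F} {f : F} {a : κ} (hf : FixCong v f a) (n : ℕ) :
    FixCong v (f ^ n) (a ^ n) := by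
  induction n with
  | zero => simpa using FixCong.const v (1 : κ)
  | succ n ih => rw [pow_succ, pow_succ]; exact ih.mul hf

theorem FixCong.sum {ι : Type*} {v : Place κ F} (t : Finset ι) {f : ι → F} {a : ι → κ}
    (h : ∀ i ∈ t, FixCong v (f i) (a i)) : FixCong v (∑ i ∈ t, f i) (∑ i ∈ t, a i) := by
  classical
  induction t using Finset.induction_on with
  | empty => simpa using FixCong.const v (0 : κ)
  | insert i t hi ih =>
    rw [Finset.sum_insert hi, Finset.sum_insert hi]
    exact (h i (Finset.mem_insert_self _ _)).add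
      (ih fun j hj => h j (Finset.mem_insert_of_mem hj))

theorem FixCong.aeval {v : Place κ F} {f : F} {a : κ} (hf : FixCong v f a)
    (P : Polynomial κ) : FixCong v (Polynomial.aeval f P) (Polynomial.eval a P) := by
  induction P using Polynomial.induction_on' with
  | add P R hP hR =>
    rw [map_add, Polynomial.eval_add]
    exact hP.add hR
  | monomial n c =>
    rw [Polynomial.aeval_monomial, Polynomial.eval_monomial]
    exact (FixCong.const v c).mul (hf.pow n)

theorem FixCong.phi (M : OnePointModel κ F s) {v : Place κ F} {ξ : κ} {η : Fin s.m → κ}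
    (hx : FixCong v M.x ξ) (hy : ∀ j, FixCong v (M.y j) (η j)) (P : Fin s.m → Polynomial κ) :
    FixCong v (∑ j, Polynomial.aeval M.x (P j) * M.y j) (∑ j, Polynomial.eval ξ (P j) * η j) :=
  FixCong.sum _ fun j _ => (hx.aeval (P j)).mul (hy j)

theorem fix_adicValuation_smul (G : SemilinearAut κ F) (v : Place κ F) (z : F) :
    (G • v).adicValuation (G • z) = v.adicValuation z := by
  rcases eq_or_ne z 0 with rfl | hz
  · simp
  have hz' : G • z ≠ 0 := by simpa using hz
  rw [(G • v).adicValuation_eq_exp_neg_ord hz', v.adicValuation_eq_exp_neg_ord hz,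
    SemilinearAut.ord_smul]

theorem FixCong.smul (G : SemilinearAut κ F) {v : Place κ F} {f : F} {a : κ}
    (h : FixCong v f a) : FixCong (G • v) (G • f) (SemilinearAut.baseAut G a) := by
  unfold FixCong
  rw [← SemilinearAut.smul_algebraMap, ← smul_sub, fix_adicValuation_smul]
  exact h

theorem FixCong.zero_iff {v : Place κ F} {f : F} : FixCong v f 0 ↔ f = 0 ∨ 0 < v.ord f := by
  unfold FixCong
  rw [map_zero, sub_zero]
  rcases eq_or_ne f 0 with rfl | hf
  · simp
  · rw [v.adicValuation_eq_exp_neg_ord hf, ← WithZero.exp_zero, WithZero.exp_lt_exp,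
      or_iff_right hf]
    omega

/-- (a) the point at infinity is fixed -/
theorem IsFrob.smul_inf {M : OnePointModel κ F s} {G : SemilinearAut κ F} {Q : ℕ}
    (h : IsFrob M G Q) : G • M.inf = M.inf := by
  by_contra hne
  have h1 := M.regular_x _ hne
  have h2 := SemilinearAut.ord_smul G M.inf M.x
  rw [SemilinearAut.smul_def, h.fix_x, M.ord_x] at h2
  have := s.m_pos
  omega

/-- (c) a finite place is determined by its coordinates -/
theorem fix_eq_of_coord {M : OnePointModel κ F s} (hS : Separates M) {v w : Place κ F}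
    (hv : v ≠ M.inf) (hw : w ≠ M.inf) {ξ : κ} {η : Fin s.m → κ}
    (hvx : FixCong v M.x ξ) (hvy : ∀ j, FixCong v (M.y j) (η j))
    (hwx : FixCong w M.x ξ) (hwy : ∀ j, FixCong w (M.y j) (η j)) : v = w := by
  by_contra hne
  obtain ⟨f, hreg, hvf, hwf⟩ := hS v w hv hw hne
  obtain ⟨P, hP⟩ := M.span f hreg
  have h1 := FixCong.phi M hvx hvy P
  have h2 := FixCong.phi M hwx hwy P
  rw [← hP] at h1 h2
  have h3 : FixCong v f 0 := FixCong.zero_iff.mpr (Or.inr hvf)
  rw [h1.unique h3, FixCong.zero_iff] at h2
  rcases h2 with rfl | h2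
  · simp at hvf
  · omega

/-- the coordinates of a finite place -/
theorem fix_exists_coord (hB : BaseHyp κ F) (M : OnePointModel κ F s) {v : Place κ F}
    (hv : v ≠ M.inf) : ∃ (ξ : κ) (η : Fin s.m → κ), FixCong v M.x ξ ∧ ∀ j, FixCong v (M.y j) (η j) := by
  obtain ⟨ξ, hξ⟩ := FixCong.exists_of_le_one hB v ((ord_nonneg_iff v _).mp (M.regular_x v hv))
  choose η hη using fun j =>
    FixCong.exists_of_le_one hB v ((ord_nonneg_iff v _).mp (M.regular_y v hv j))
  exact ⟨ξ, η, hξ, hη⟩

theorem fix_finite_pow_eq (Q : ℕ) (hQ : 1 < Q) : {a : κ | a ^ Q = a}.Finite := by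
  classical
  have hne : (Polynomial.X ^ Q - Polynomial.X : Polynomial κ) ≠ 0 :=
    FiniteField.X_pow_card_sub_X_ne_zero κ hQ
  refine ((Polynomial.X ^ Q - Polynomial.X : Polynomial κ).roots.toFinset.finite_toSet).subset ?_
  intro a ha
  simp only [Set.mem_ofPred_eq] at ha
  simp only [Finset.mem_coe, Multiset.mem_toFinset, Polynomial.mem_roots hne,
    Polynomial.IsRoot.def, Polynomial.eval_sub, Polynomial.eval_pow, Polynomial.eval_X, ha,
    sub_self]

open Classical in
/-- a choice of coordinates -/
def fixCoord (M : OnePointModel κ F s) (v : Place κ F) : Option (Fin s.m) → κ := fun o =>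
  match o with
  | none => if h : ∃ a, FixCong v M.x a then h.choose else 0
  | some j => if h : ∃ a, FixCong v (M.y j) a then h.choose else 0

theorem fixCoord_none (hB : BaseHyp κ F) (M : OnePointModel κ F s) {v : Place κ F}
    (hv : v ≠ M.inf) : FixCong v M.x (fixCoord M v none) := by
  obtain ⟨ξ, η, hξ, hη⟩ := fix_exists_coord hB M hv
  have h : ∃ a, FixCong v M.x a := ⟨ξ, hξ⟩
  simp only [fixCoord, dif_pos h]
  exact h.choose_spec

theorem fixCoord_some (hB : BaseHyp κ F) (M : OnePointModel κ F s) {v : Place κ F}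
    (hv : v ≠ M.inf) (j : Fin s.m) : FixCong v (M.y j) (fixCoord M v (some j)) := by
  obtain ⟨ξ, η, hξ, hη⟩ := fix_exists_coord hB M hv
  have h : ∃ a, FixCong v (M.y j) a := ⟨η j, hη j⟩
  simp only [fixCoord, dif_pos h]
  exact h.choose_spec

/-- (d) -/
theorem fix_finite (hB : BaseHyp κ F) {M : OnePointModel κ F s} (hS : Separates M)
    {G : SemilinearAut κ F} {Q : ℕ} (hQ : 1 < Q) (h : IsFrob M G Q) :
    {v : Place κ F | G • v = v}.Finite := by
  have hsub : {v : Place κ F | G • v = v} ⊆ insert M.inf {v : Place κ F | G • v = v ∧ v ≠ M.inf} := by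
    intro v hv
    by_cases hvi : v = M.inf
    · exact Or.inl hvi
    · exact Or.inr ⟨hv, hvi⟩
  refine Set.Finite.subset (Set.Finite.insert _ ?_) hsub
  have ht : (Set.pi Set.univ fun _ : Option (Fin s.m) => {a : κ | a ^ Q = a}).Finite :=
    Set.Finite.pi fun _ => fix_finite_pow_eq Q hQ
  refine Set.Finite.of_injOn (f := fixCoord M) ?_ ?_ ht
  · rintro v ⟨hv, hvi⟩ o -
    simp only [Set.mem_ofPred_eq]
    cases o with
    | none =>
      have h1 := fixCoord_none hB M hvi
      have h2 := h1.smul G
      rw [hv, SemilinearAut.smul_def, h.fix_x, h.base] at h2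
      exact h2.unique h1
    | some j =>
      have h1 := fixCoord_some hB M hvi j
      have h2 := h1.smul G
      rw [hv, SemilinearAut.smul_def, h.fix_y, h.base] at h2
      exact h2.unique h1
  · rintro v ⟨-, hvi⟩ w ⟨-, hwi⟩ hvw
    refine fix_eq_of_coord hS hvi hwi (fixCoord_none hB M hvi) (fixCoord_some hB M hvi) ?_ ?_
    · rw [hvw]; exact fixCoord_none hB M hwi
    · intro j
      rw [hvw]; exact fixCoord_some hB M hwi j

/-- (e) -/
theorem fix_periodic (hB : BaseHyp κ F) {M : OnePointModel κ F s} (hS : Separates M)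
    {G : SemilinearAut κ F} {Q : ℕ} (h : IsFrob M G Q)
    (hκ : ∀ a : κ, ∃ n : ℕ, 0 < n ∧ a ^ (Q ^ n) = a) (v : Place κ F) :
    ∃ m : ℕ, 0 < m ∧ G ^ m • v = v := by
  by_cases hvi : v = M.inf
  · exact ⟨1, one_pos, by rw [pow_one, hvi, h.smul_inf]⟩
  obtain ⟨n, hn, hpow⟩ := exists_common_pow hκ 1 (fixCoord M v)
  simp only [one_mul] at hpow
  refine ⟨n, hn, ?_⟩
  have hG := h.pow n
  have hne : G ^ n • v ≠ M.inf := by
    intro h1
    rw [← hG.smul_inf] at h1
    exact hvi (MulAction.injective _ h1)
  refine fix_eq_of_coord hS hne hvi (ξ := fixCoord M v none)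
    (η := fun j => fixCoord M v (some j)) ?_ ?_ (fixCoord_none hB M hvi) (fixCoord_some hB M hvi)
  · have h2 := (fixCoord_none hB M hvi).smul (G ^ n)
    rwa [SemilinearAut.smul_def, hG.fix_x, hG.base, hpow] at h2
  · intro j
    have h2 := (fixCoord_some hB M hvi j).smul (G ^ n)
    rwa [SemilinearAut.smul_def, hG.fix_y, hG.base, hpow] at h2

end fix

theorem stmtFix : StmtFix.{u, v} := by
  intro κ F _ _ _ s hB M hS G Q hQ h
  exact ⟨h.smul_inf, fix_finite hB hS hQ h, fun hκ v => fix_periodic hB hS h hκ v⟩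

end Fermat.Agent.S27.Frob
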