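import Fermat.Agent.S27.Frob.Basic

/-!
# Project S27, block FROB, piece INDEP

The `y_j` of a one point model are linearly independent over `κ[x]`: the monomials `x ^ t * y_j`
have pairwise distinct pole orders `m t + b_j` at the point at infinity.
-/

set_option autoImplicit false

noncomputable section

namespace Fermat.Agent.S27.Frob

open AlgebraicCurve

universe u v

section

variable {κ : Type u} {F : Type v} [Field κ] [Field F] [Algebra κ F] {s : Shape}

theorem indep_x_ne_zero (M : OnePointModel κ F s) : M.x ≠ 0 := by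
  intro h
  have h1 := M.ord_x
  rw [h, Place.ord_zero] at h1
  have := s.m_pos
  omega

theorem indep_y_ne_zero (M : OnePointModel κ F s) (j : Fin s.m) : M.y j ≠ 0 := by
  intro h
  have h1 := M.ord_y j
  rw [h, Place.ord_zero] at h1
  have hb : s.b j = 0 := by omega
  have hj : (j : ℕ) = 0 := by
    have := s.b_mod j
    rw [hb] at this
    simpa using this.symm
  have hj' : j = s.zero := Fin.ext hj
  rw [hj', M.y_zero] at h
  exact one_ne_zero h

theorem indep_ord_pow (M : OnePointModel κ F s) (t : ℕ) :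
    M.inf.ord (M.x ^ t) = -((s.m * t : ℕ) : ℤ) := by
  have := M.inf.ord_zpow M.x (t : ℤ)
  rw [zpow_natCast, M.ord_x] at this
  rw [this]
  push_cast
  ring

theorem indep_ord_term (M : OnePointModel κ F s) {a : κ} (ha : a ≠ 0) (t : ℕ) (j : Fin s.m) :
    M.inf.ord (algebraMap κ F a * M.x ^ t * M.y j) = -((s.m * t + s.b j : ℕ) : ℤ) := by
  have ha' : algebraMap κ F a ≠ 0 := by simpa using ha
  have hx := pow_ne_zero t (indep_x_ne_zero M)
  rw [Place.ord_mul _ (mul_ne_zero ha' hx) (indep_y_ne_zero M j), Place.ord_mul _ ha' hx,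
    ord_algebraMap, indep_ord_pow, M.ord_y]
  push_cast
  ring

theorem indep_val_term (M : OnePointModel κ F s) {a : κ} (ha : a ≠ 0) (t : ℕ) (j : Fin s.m) :
    M.inf.adicValuation (algebraMap κ F a * M.x ^ t * M.y j)
      = WithZero.exp ((s.m * t + s.b j : ℕ) : ℤ) := by
  have ha' : algebraMap κ F a ≠ 0 := by simpa using ha
  have hne : algebraMap κ F a * M.x ^ t * M.y j ≠ 0 :=
    mul_ne_zero (mul_ne_zero ha' (pow_ne_zero t (indep_x_ne_zero M))) (indep_y_ne_zero M j)
  rw [Place.adicValuation_eq_exp_neg_ord _ hne, indep_ord_term M ha, neg_neg]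

theorem indep_weight_inj (s : Shape) {j j' : Fin s.m} {t t' : ℕ}
    (h : s.m * t + s.b j = s.m * t' + s.b j') : j = j' ∧ t = t' := by
  have h1 : (s.m * t + s.b j) % s.m = j := by
    rw [Nat.mul_add_mod, s.b_mod]
  have h2 : (s.m * t' + s.b j') % s.m = j' := by
    rw [Nat.mul_add_mod, s.b_mod]
  have hj : j = j' := Fin.ext (by rw [← h1, ← h2, h])
  subst hj
  refine ⟨rfl, ?_⟩
  have : s.m * t = s.m * t' := by omega
  exact Nat.eq_of_mul_eq_mul_left s.m_pos this

theorem indep_Phi_eq (M : OnePointModel κ F s) (P : Fin s.m → Polynomial κ) :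
    Phi M P = ∑ z ∈ (Finset.univ : Finset (Fin s.m)).sigma (fun j => (P j).support),
      algebraMap κ F ((P z.1).coeff z.2) * M.x ^ z.2 * M.y z.1 := by
  rw [Finset.sum_sigma]
  unfold Phi
  refine Finset.sum_congr rfl fun j _ => ?_
  rw [Polynomial.aeval_eq_sum_range]
  show _ = ∑ t ∈ (P j).support, algebraMap κ F ((P j).coeff t) * M.x ^ t * M.y j
  rw [← Finset.sum_mul]
  congr 1
  have h := Polynomial.sum_over_range' (P j)
    (f := fun (i : ℕ) (a : κ) => algebraMap κ F a * M.x ^ i) (by intro i; simp)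
    ((P j).natDegree + 1) (Nat.lt_succ_self _)
  rw [Polynomial.sum_def] at h
  rw [h]
  refine Finset.sum_congr rfl fun i _ => ?_
  rw [Algebra.smul_def]

theorem indep (M : OnePointModel κ F s) : Indep M := by
  classical
  intro P hP
  by_contra hne
  set S := (Finset.univ : Finset (Fin s.m)).sigma (fun j => (P j).support) with hS
  have hSne : S.Nonempty := by
    have : ∃ j, P j ≠ 0 := by
      by_contra hcon
      exact hne (funext fun j => by_contra fun hj => hcon ⟨j, hj⟩)
    obtain ⟨j, hj⟩ := this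
    obtain ⟨t, ht⟩ := Polynomial.nonempty_support_iff.2 hj
    exact ⟨⟨j, t⟩, by simp [hS, Polynomial.mem_support_iff.1 ht]⟩
  obtain ⟨z, hz, hmax⟩ := Finset.exists_max_image S (fun z => s.m * z.2 + s.b z.1) hSne
  have hcoef : ∀ z' ∈ S, (P z'.1).coeff z'.2 ≠ 0 := by
    intro z' hz'
    have := (Finset.mem_sigma.1 hz').2
    exact Polynomial.mem_support_iff.1 this
  have hval := Valuation.map_sum_eq_of_lt M.inf.adicValuation
    (f := fun z : (_ : Fin s.m) × ℕ => algebraMap κ F ((P z.1).coeff z.2) * M.x ^ z.2 * M.y z.1)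
    hz (by
      intro z' hz'
      obtain ⟨hz'S, hz'ne⟩ := Finset.mem_sdiff.1 hz'
      rw [indep_val_term M (hcoef z' hz'S), indep_val_term M (hcoef z hz), WithZero.exp_lt_exp]
      have hle := hmax z' hz'S
      have hneq : s.m * z'.2 + s.b z'.1 ≠ s.m * z.2 + s.b z.1 := by
        intro heq
        obtain ⟨h1, h2⟩ := indep_weight_inj s heq
        exact hz'ne (Finset.mem_singleton.2 (Sigma.ext h1 (heq_of_eq h2)))
      exact_mod_cast lt_of_le_of_ne hle hneq)
  rw [← indep_Phi_eq, hP, map_zero, indep_val_term M (hcoef z hz)] at hval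
  exact WithZero.exp_ne_zero hval.symm

end

theorem stmtIndep : StmtIndep.{u, v} := fun _ _ _ _ _ _ M => indep M

end Fermat.Agent.S27.Frob
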