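import Fermat.Agent.S27.Frob.Basic

/-!
# S27 / FROB / LANG : Lang's theorem for a `Q`-semilinear injective additive map

For `κ = 𝔽̄_p`-like (algebraically closed, every element periodic under Frobenius),
`V` finite dimensional and `T : V →+ V` injective and `Q`-semilinear, the fixed points of `T`
span `V` and there are exactly `Q ^ dim V` of them.
-/

set_option autoImplicit false

noncomputable section

namespace Fermat.Agent.S27.Frob

universe u v

section Lang

variable {κ : Type u} {V : Type v} [Field κ] [AddCommGroup V] [Module κ V]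

/-- vectors whose coordinates satisfy a predicate. -/
def langCoordEquiv {ι : Type*} [Fintype ι] (B : Module.Basis ι κ V) (P : κ → Prop) :
    {w : V // ∀ i, P (B.equivFun w i)} ≃ (ι → {a : κ // P a}) :=
  (Equiv.subtypeEquiv B.equivFun.toEquiv (fun _ => Iff.rfl)).trans
    (Equiv.subtypePiEquivPi (p := fun (_ : ι) (a : κ) => P a))

theorem lang_iter_smul {Q : ℕ} (T : V →+ V) (hT : ∀ (a : κ) (w : V), T (a • w) = a ^ Q • T w)
    (i : ℕ) (a : κ) (w : V) : T^[i] (a • w) = a ^ (Q ^ i) • T^[i] w := by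
  induction i with
  | zero => simp
  | succ i ih =>
    rw [Function.iterate_succ_apply', ih, hT, Function.iterate_succ_apply', ← pow_mul, pow_succ]

/-- coordinates of `T w`. -/
theorem lang_repr_T {ι : Type*} [Fintype ι] (B : Module.Basis ι κ V) {Q : ℕ} (T : V →+ V)
    (hT : ∀ (a : κ) (w : V), T (a • w) = a ^ Q • T w) (w : V) :
    T w = ∑ j, (B.equivFun w j) ^ Q • T (B j) := by
  conv_lhs => rw [← B.sum_equivFun w, map_sum]
  exact Finset.sum_congr rfl fun j _ => hT _ _

/-- the averaging vector is fixed. -/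
theorem lang_fixed_sum {Q : ℕ} (T : V →+ V) (hT : ∀ (a : κ) (w : V), T (a • w) = a ^ Q • T w)
    (M : ℕ) (a : κ) (w : V) (ha : a ^ (Q ^ M) = a) (hw : T^[M] w = w) :
    T (∑ i ∈ Finset.range M, a ^ (Q ^ i) • T^[i] w) =
      ∑ i ∈ Finset.range M, a ^ (Q ^ i) • T^[i] w := by
  have h1 : T (∑ i ∈ Finset.range M, a ^ (Q ^ i) • T^[i] w) =
      ∑ i ∈ Finset.range M, a ^ (Q ^ (i + 1)) • T^[i + 1] w := by
    rw [map_sum]
    refine Finset.sum_congr rfl fun i _ => ?_
    rw [hT, Function.iterate_succ_apply', ← pow_mul, pow_succ]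
  rw [h1]
  have h2 := Finset.sum_range_succ (fun i => a ^ (Q ^ i) • T^[i] w) M
  have h3 := Finset.sum_range_succ' (fun i => a ^ (Q ^ i) • T^[i] w) M
  rw [h2] at h3
  simp only [ha, hw, pow_zero, pow_one, Function.iterate_zero, id_eq] at h3
  exact (add_right_cancel h3).symm

theorem lang_exists_period [IsAlgClosed κ] (p : ℕ) [CharP κ p] (hp : p.Prime)
    (hκ : ∀ a : κ, ∃ n : ℕ, 0 < n ∧ a ^ (p ^ n) = a) {Q : ℕ} (hQ : ∃ k : ℕ, 0 < k ∧ Q = p ^ k)
    (T : V →+ V) (hT : ∀ (a : κ) (w : V), T (a • w) = a ^ Q • T w)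
    (hinj : Function.Injective T) {ι : Type*} [Fintype ι] (e : Module.Basis ι κ V) :
    ∃ M : ℕ, 0 < M ∧ ∀ j, T^[M] (e j) = e j := by
  classical
  obtain ⟨k, hk, rfl⟩ := hQ
  obtain ⟨N, hN, hA⟩ := exists_common_pow hκ k
    (fun ij : ι × ι => e.equivFun (T (e ij.2)) ij.1)
  have : ExpChar κ p := ExpChar.prime hp
  have hq0 : p ^ (k * N) ≠ 0 := pow_ne_zero _ hp.ne_zero
  have hfinF : Finite {a : κ // a ^ (p ^ (k * N)) = a} := by
    apply Nat.finite_of_card_ne_zero
    rw [card_pow_eq_self p hp (p ^ (k * N)) ⟨k * N, Nat.mul_pos hk hN, rfl⟩]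
    exact hq0
  have hfin : Finite {w : V // ∀ i, (e.equivFun w i) ^ (p ^ (k * N)) = e.equivFun w i} :=
    Finite.of_equiv _ (langCoordEquiv e (fun a => a ^ (p ^ (k * N)) = a)).symm
  have hstab : ∀ w : V, (∀ i, (e.equivFun w i) ^ (p ^ (k * N)) = e.equivFun w i) →
      ∀ i, (e.equivFun (T w) i) ^ (p ^ (k * N)) = e.equivFun (T w) i := by
    intro w hw i
    have hc : e.equivFun (T w) i =
        ∑ j, (e.equivFun w j) ^ (p ^ k) * e.equivFun (T (e j)) i := by
      conv_lhs => rw [lang_repr_T e T hT w]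
      simp [map_sum, Finset.sum_apply]
    rw [hc, sum_pow_char_pow]
    refine Finset.sum_congr rfl fun j _ => ?_
    rw [mul_pow, hA (i, j), ← pow_mul, mul_comm (p ^ k), pow_mul, hw j]
  let f : {w : V // ∀ i, (e.equivFun w i) ^ (p ^ (k * N)) = e.equivFun w i} →
      {w : V // ∀ i, (e.equivFun w i) ^ (p ^ (k * N)) = e.equivFun w i} :=
    fun w => ⟨T w.1, hstab w.1 w.2⟩
  have hf : Function.Injective f := fun x y h =>
    Subtype.ext (hinj (congrArg Subtype.val h))
  let σ : Equiv.Perm {w : V // ∀ i, (e.equivFun w i) ^ (p ^ (k * N)) = e.equivFun w i} :=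
    Equiv.ofBijective f (Finite.injective_iff_bijective.mp hf)
  have hiter : ∀ (m : ℕ) x, (f^[m] x).1 = T^[m] x.1 := by
    intro m x
    induction m with
    | zero => rfl
    | succ m ih => rw [Function.iterate_succ_apply', Function.iterate_succ_apply', ← ih]
  refine ⟨orderOf σ, orderOf_pos σ, fun j => ?_⟩
  have hej : ∀ i, (e.equivFun (e j) i) ^ (p ^ (k * N)) = e.equivFun (e j) i := by
    intro i
    rw [Module.Basis.equivFun_self]
    split_ifs
    · exact one_pow _
    · exact zero_pow hq0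
  have h1 : (σ ^ orderOf σ) ⟨e j, hej⟩ = ⟨e j, hej⟩ := by
    rw [pow_orderOf_eq_one]; rfl
  rw [← Equiv.Perm.iterate_eq_pow] at h1
  have h2 := congrArg Subtype.val h1
  have h3 : (σ : _ → _) = f := rfl
  rw [h3, hiter] at h2
  exact h2

theorem lang_span_top [IsAlgClosed κ] (p : ℕ) [CharP κ p] (hp : p.Prime)
    {Q : ℕ} (hQ : ∃ k : ℕ, 0 < k ∧ Q = p ^ k)
    (T : V →+ V) (hT : ∀ (a : κ) (w : V), T (a • w) = a ^ Q • T w)
    {ι : Type*} [Fintype ι] (e : Module.Basis ι κ V)
    (M : ℕ) (hM : 0 < M) (hper : ∀ j, T^[M] (e j) = e j) :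
    Submodule.span κ {w : V | T w = w} = ⊤ := by
  classical
  by_contra hne
  obtain ⟨k, hk, rfl⟩ := hQ
  obtain ⟨l, hl0, hl⟩ := Submodule.exists_le_ker_of_lt_top _ (lt_top_iff_ne_top.mpr hne)
  have hex : ∃ j, l (e j) ≠ 0 := by
    by_contra hcon
    push Not at hcon
    exact hl0 (e.ext fun j => by simpa using hcon j)
  obtain ⟨j, hj⟩ := hex
  have hQ1 : 1 < p ^ k := Nat.one_lt_pow hk.ne' hp.one_lt
  set P : Polynomial κ := ∑ i ∈ Finset.range M,
    Polynomial.C (l (T^[i] (e j))) * Polynomial.X ^ ((p ^ k) ^ i) with hP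
  have heval : ∀ a : κ, a ^ ((p ^ k) ^ M) = a → P.eval a = 0 := by
    intro a ha
    have hfix := lang_fixed_sum T hT M a (e j) ha (hper j)
    have hmem : (∑ i ∈ Finset.range M, a ^ ((p ^ k) ^ i) • T^[i] (e j)) ∈
        Submodule.span κ {w : V | T w = w} := Submodule.subset_span hfix
    have h0 := hl hmem
    rw [LinearMap.mem_ker, map_sum] at h0
    rw [hP, Polynomial.eval_finsetSum, ← h0]
    refine Finset.sum_congr rfl fun i _ => ?_
    rw [Polynomial.eval_mul, Polynomial.eval_C, Polynomial.eval_pow, Polynomial.eval_X,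
      map_smul, smul_eq_mul, mul_comm]
  have hdeg : P.natDegree ≤ (p ^ k) ^ (M - 1) := by
    apply Polynomial.natDegree_sum_le_of_forall_le
    intro i hi
    refine (Polynomial.natDegree_C_mul_X_pow_le _ _).trans ?_
    apply Nat.pow_le_pow_right hQ1.le
    have := Finset.mem_range.mp hi
    omega
  have hlt : (p ^ k) ^ (M - 1) < (p ^ k) ^ M := Nat.pow_lt_pow_right hQ1 (by omega)
  have hcard : Nat.card {a : κ // a ^ ((p ^ k) ^ M) = a} = (p ^ k) ^ M :=
    card_pow_eq_self p hp _ ⟨k * M, Nat.mul_pos hk hM, (pow_mul p k M).symm⟩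
  have hfin : Finite {a : κ // a ^ ((p ^ k) ^ M) = a} := by
    apply Nat.finite_of_card_ne_zero
    rw [hcard]; exact (by omega : (p ^ k) ^ M ≠ 0)
  have hfinset : ({a : κ | a ^ ((p ^ k) ^ M) = a}).Finite := hfin
  have hP0 : P = 0 := by
    apply Polynomial.eq_zero_of_natDegree_lt_card_of_eval_eq_zero' P hfinset.toFinset
    · intro a ha
      exact heval a (by simpa using ha)
    · have : hfinset.toFinset.card = (p ^ k) ^ M := by
        have h5 := Nat.card_eq_card_finite_toFinset hfinset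
        rw [← h5]
        exact hcard
      omega
  have hcoeff : P.coeff 1 = l (e j) := by
    rw [hP, Polynomial.finsetSum_coeff, Finset.sum_eq_single 0]
    · simp
    · intro i _ hi
      rw [Polynomial.coeff_C_mul_X_pow, if_neg]
      intro h1
      exact hi ((Nat.pow_eq_one.mp h1.symm).resolve_left hQ1.ne')
    · intro h; exact absurd (Finset.mem_range.mpr hM) h
  rw [hP0] at hcoeff
  exact hj (by simpa using hcoeff.symm)

theorem lang_count [IsAlgClosed κ] [Module.Finite κ V] (p : ℕ) [CharP κ p] (hp : p.Prime)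
    {Q : ℕ} (hQ : ∃ k : ℕ, 0 < k ∧ Q = p ^ k)
    (T : V →+ V) (hT : ∀ (a : κ) (w : V), T (a • w) = a ^ Q • T w)
    (hspan : Submodule.span κ {w : V | T w = w} = ⊤) :
    Nat.card {w : V // T w = w} = Q ^ Module.finrank κ V := by
  classical
  obtain ⟨b, hbsub, hbspan, hbli⟩ := exists_linearIndependent κ {w : V | T w = w}
  have hb_top : ⊤ ≤ Submodule.span κ (Set.range ((↑) : b → V)) := by
    rw [Subtype.range_coe, hbspan, hspan]
  let B : Module.Basis b κ V := Module.Basis.mk hbli hb_top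
  have : Finite b := Module.Finite.finite_basis B
  have : Fintype b := Fintype.ofFinite b
  have hBfix : ∀ i : b, T (B i) = B i := by
    intro i
    have : B i = (i : V) := Module.Basis.mk_apply hbli hb_top i
    rw [this]
    exact hbsub i.2
  have hiff : ∀ w : V, T w = w ↔ ∀ i, (B.equivFun w i) ^ Q = B.equivFun w i := by
    intro w
    have h1 : T w = ∑ i, (B.equivFun w i) ^ Q • B i := by
      rw [lang_repr_T B T hT w]
      exact Finset.sum_congr rfl fun i _ => by rw [hBfix]
    constructor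
    · intro h i
      have h2 : B.equivFun (T w) i = (B.equivFun w i) ^ Q := by
        rw [h1]
        have := B.equivFun_apply (∑ i, (B.equivFun w i) ^ Q • B i)
        rw [this, Module.Basis.repr_sum_self]
      rw [← h2, h]
    · intro h
      rw [h1]
      conv_rhs => rw [← B.sum_equivFun w]
      exact Finset.sum_congr rfl fun i _ => by rw [h i]
  rw [Nat.card_congr ((Equiv.subtypeEquivRight hiff).trans
    (langCoordEquiv B (fun a => a ^ Q = a))), Nat.card_fun, card_pow_eq_self p hp Q hQ,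
    Module.finrank_eq_nat_card_basis B]

end Lang

theorem stmtLang : StmtLang.{u, v} := by
  intro p κ V _ _ _ _ _ _ hp hκ Q hQ T hT hinj
  obtain ⟨M, hM, hper⟩ := lang_exists_period p hp hκ hQ T hT hinj (Module.finBasis κ V)
  exact lang_count p hp hQ T hT (lang_span_top p hp hQ T hT (Module.finBasis κ V) M hM hper)

end Fermat.Agent.S27.Frob
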