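import Fermat.Agent.S27.Frob.Basic

/-!
# Project S27, block FROB, piece TAU: construction of the `q`-Frobenius of `F` from a model
-/

set_option autoImplicit false

noncomputable section

namespace Fermat.Agent.S27.Frob

open AlgebraicCurve Polynomial

universe u v

section

variable {κ : Type u} {F : Type v} [Field κ] [Field F] [Algebra κ F] {s : Shape}

theorem tau_reg_iff (M : OnePointModel κ F s) (f : F) :
    Reg M f ↔ ∀ v : Place κ F, v ≠ M.inf → v.adicValuation f ≤ 1 :=
  forall₂_congr fun v _ => ord_nonneg_iff v f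

/-- the ring of functions regular outside `inf`. -/
def tauRing (M : OnePointModel κ F s) : Subalgebra κ F where
  carrier := {f | Reg M f}
  mul_mem' := by
    intro a b ha hb
    rw [Set.mem_ofPred_eq, tau_reg_iff] at ha hb ⊢
    intro v hv
    rw [map_mul]
    exact mul_le_one' (ha v hv) (hb v hv)
  add_mem' := by
    intro a b ha hb
    rw [Set.mem_ofPred_eq, tau_reg_iff] at ha hb ⊢
    intro v hv
    exact (Valuation.map_add _ a b).trans (max_le (ha v hv) (hb v hv))
  algebraMap_mem' := by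
    intro a
    rw [Set.mem_ofPred_eq, tau_reg_iff]
    intro v _
    exact v.adicValuation_algebraMap_le_one a

theorem tau_mem_iff (M : OnePointModel κ F s) (f : F) : f ∈ tauRing M ↔ Reg M f := Iff.rfl

theorem tau_x_mem (M : OnePointModel κ F s) : M.x ∈ tauRing M := M.regular_x

theorem tau_y_mem (M : OnePointModel κ F s) (j : Fin s.m) : M.y j ∈ tauRing M :=
  fun v hv => M.regular_y v hv j

theorem tau_aeval_mem (M : OnePointModel κ F s) (P : κ[X]) : aeval M.x P ∈ tauRing M := by
  have := Subalgebra.aeval_coe (tauRing M) (⟨M.x, tau_x_mem M⟩ : tauRing M) P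
  rw [this]
  exact Subtype.property _

theorem tau_Phi_mem (M : OnePointModel κ F s) (P : Fin s.m → κ[X]) : Phi M P ∈ tauRing M :=
  sum_mem fun j _ => mul_mem (tau_aeval_mem M _) (tau_y_mem M j)

theorem tau_Phi_add (M : OnePointModel κ F s) (P P' : Fin s.m → κ[X]) :
    Phi M (P + P') = Phi M P + Phi M P' := by
  simp only [Phi, Pi.add_apply, map_add, add_mul, Finset.sum_add_distrib]

theorem tau_Phi_zero (M : OnePointModel κ F s) : Phi M 0 = 0 := by
  simp only [Phi, Pi.zero_apply, map_zero, zero_mul, Finset.sum_const_zero]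

theorem tau_Phi_sub (M : OnePointModel κ F s) (P P' : Fin s.m → κ[X]) :
    Phi M (P - P') = Phi M P - Phi M P' := by
  simp only [Phi, Pi.sub_apply, map_sub, sub_mul, Finset.sum_sub_distrib]

theorem tau_Phi_single (M : OnePointModel κ F s) (j : Fin s.m) (P : κ[X]) :
    Phi M (Pi.single j P) = aeval M.x P * M.y j := by
  classical
  rw [Phi, Finset.sum_eq_single j]
  · rw [Pi.single_eq_same]
  · intro i _ hi
    rw [Pi.single_eq_of_ne hi, map_zero, zero_mul]
  · intro h
    exact absurd (Finset.mem_univ j) h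

theorem tau_Phi_inj {M : OnePointModel κ F s} (hI : Indep M) {P P' : Fin s.m → κ[X]}
    (h : Phi M P = Phi M P') : P = P' := by
  have := hI (P - P') (by rw [tau_Phi_sub, h, sub_self])
  exact sub_eq_zero.1 this

/-- the multiplication of `R` in coordinates. -/
def tauMul (M : OnePointModel κ F s) (P P' : Fin s.m → κ[X]) : Fin s.m → κ[X] :=
  fun l => ∑ i, ∑ j, P i * P' j * M.c.poly i j l

theorem tau_Phi_mul (M : OnePointModel κ F s) (P P' : Fin s.m → κ[X]) :
    Phi M P * Phi M P' = Phi M (tauMul M P P') := by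
  calc Phi M P * Phi M P'
      = ∑ i, ∑ j, (aeval M.x (P i) * aeval M.x (P' j)) * (M.y i * M.y j) := by
        rw [Phi, Phi, Finset.sum_mul_sum]
        exact Finset.sum_congr rfl fun i _ => Finset.sum_congr rfl fun j _ => by ring
    _ = ∑ i, ∑ j, ∑ l, aeval M.x (P i * P' j * M.c.poly i j l) * M.y l := by
        refine Finset.sum_congr rfl fun i _ => Finset.sum_congr rfl fun j _ => ?_
        rw [M.mul_table, Finset.mul_sum]
        refine Finset.sum_congr rfl fun l _ => ?_
        rw [map_mul, map_mul]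
        ring
    _ = ∑ i, ∑ l, ∑ j, aeval M.x (P i * P' j * M.c.poly i j l) * M.y l :=
        Finset.sum_congr rfl fun i _ => Finset.sum_comm
    _ = ∑ l, ∑ i, ∑ j, aeval M.x (P i * P' j * M.c.poly i j l) * M.y l := Finset.sum_comm
    _ = Phi M (tauMul M P P') := by
        rw [Phi]
        refine Finset.sum_congr rfl fun l _ => ?_
        rw [tauMul, map_sum, Finset.sum_mul]
        refine Finset.sum_congr rfl fun i _ => ?_
        rw [map_sum, Finset.sum_mul]

/-- coordinates of an element of `R`. -/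
def tauCoord (M : OnePointModel κ F s) (f : tauRing M) : Fin s.m → κ[X] :=
  (M.span f.1 f.2).choose

theorem tauCoord_spec (M : OnePointModel κ F s) (f : tauRing M) :
    Phi M (tauCoord M f) = f.1 :=
  (M.span f.1 f.2).choose_spec.symm

theorem tauCoord_eq {M : OnePointModel κ F s} (hI : Indep M) {f : tauRing M}
    {P : Fin s.m → κ[X]} (h : Phi M P = f.1) : tauCoord M f = P :=
  tau_Phi_inj hI ((tauCoord_spec M f).trans h.symm)

/-- apply `σ` to the coefficients. -/
def tauMap (σ : κ →+* κ) (P : Fin s.m → κ[X]) : Fin s.m → κ[X] := fun j => (P j).map σ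

theorem tauMap_add (σ : κ →+* κ) (P P' : Fin s.m → κ[X]) :
    tauMap σ (P + P') = tauMap σ P + tauMap σ P' := by
  funext j
  simp only [tauMap, Pi.add_apply, Polynomial.map_add]

theorem tauMap_single (σ : κ →+* κ) (j : Fin s.m) (P : κ[X]) :
    tauMap σ (Pi.single j P) = Pi.single j (P.map σ) := by
  classical
  funext i
  rcases eq_or_ne i j with rfl | hi
  · simp only [tauMap, Pi.single_eq_same]
  · simp only [tauMap, Pi.single_eq_of_ne hi, Polynomial.map_zero]

theorem tau_poly_map (M : OnePointModel κ F s) (σ : κ →+* κ)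
    (hσ : ∀ i j l t, σ (M.c i j l t) = M.c i j l t) (i j l : Fin s.m) :
    (M.c.poly i j l).map σ = M.c.poly i j l := by
  simp only [Table.poly, Polynomial.map_sum, Polynomial.map_mul, Polynomial.map_C,
    Polynomial.map_pow, Polynomial.map_X, hσ]

theorem tauMap_mul (M : OnePointModel κ F s) (σ : κ →+* κ)
    (hσ : ∀ i j l t, σ (M.c i j l t) = M.c i j l t) (P P' : Fin s.m → κ[X]) :
    tauMap σ (tauMul M P P') = tauMul M (tauMap σ P) (tauMap σ P') := by
  funext l
  simp only [tauMap, tauMul, Polynomial.map_sum, Polynomial.map_mul, tau_poly_map M σ hσ]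

/-- the endomorphism of `R` induced by `σ`. -/
def tauHom (M : OnePointModel κ F s) (hI : Indep M) (σ : κ →+* κ)
    (hσ : ∀ i j l t, σ (M.c i j l t) = M.c i j l t) : tauRing M →+* tauRing M where
  toFun f := ⟨Phi M (tauMap σ (tauCoord M f)), tau_Phi_mem M _⟩
  map_one' := by
    have h1 : tauCoord M (1 : tauRing M) = Pi.single s.zero 1 :=
      tauCoord_eq hI (by rw [tau_Phi_single, map_one, one_mul, M.y_zero]; rfl)
    apply Subtype.ext
    show Phi M (tauMap σ (tauCoord M 1)) = 1
    rw [h1, tauMap_single, Polynomial.map_one, tau_Phi_single, map_one, one_mul, M.y_zero]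
  map_mul' f g := by
    have h1 : tauCoord M (f * g) = tauMul M (tauCoord M f) (tauCoord M g) :=
      tauCoord_eq hI (by rw [← tau_Phi_mul, tauCoord_spec, tauCoord_spec]; rfl)
    apply Subtype.ext
    show Phi M (tauMap σ (tauCoord M (f * g)))
      = Phi M (tauMap σ (tauCoord M f)) * Phi M (tauMap σ (tauCoord M g))
    rw [h1, tauMap_mul M σ hσ, tau_Phi_mul]
  map_zero' := by
    have h1 : tauCoord M (0 : tauRing M) = 0 := tauCoord_eq hI (by rw [tau_Phi_zero]; rfl)
    apply Subtype.ext
    show Phi M (tauMap σ (tauCoord M 0)) = 0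
    rw [h1]
    have : tauMap σ (0 : Fin s.m → κ[X]) = 0 := by
      funext j
      simp only [tauMap, Pi.zero_apply, Polynomial.map_zero]
    rw [this, tau_Phi_zero]
  map_add' f g := by
    have h1 : tauCoord M (f + g) = tauCoord M f + tauCoord M g :=
      tauCoord_eq hI (by rw [tau_Phi_add, tauCoord_spec, tauCoord_spec]; rfl)
    apply Subtype.ext
    show Phi M (tauMap σ (tauCoord M (f + g)))
      = Phi M (tauMap σ (tauCoord M f)) + Phi M (tauMap σ (tauCoord M g))
    rw [h1, tauMap_add, tau_Phi_add]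

theorem tauHom_Phi (M : OnePointModel κ F s) (hI : Indep M) (σ : κ →+* κ)
    (hσ : ∀ i j l t, σ (M.c i j l t) = M.c i j l t) (P : Fin s.m → κ[X]) :
    tauHom M hI σ hσ ⟨Phi M P, tau_Phi_mem M P⟩ = ⟨Phi M (tauMap σ P), tau_Phi_mem M _⟩ := by
  apply Subtype.ext
  show Phi M (tauMap σ (tauCoord M ⟨Phi M P, tau_Phi_mem M P⟩)) = Phi M (tauMap σ P)
  rw [tauCoord_eq hI (f := ⟨Phi M P, tau_Phi_mem M P⟩) (P := P) rfl]

theorem tauHom_comp (M : OnePointModel κ F s) (hI : Indep M) (σ σ' : κ →+* κ)
    (hσ : ∀ i j l t, σ (M.c i j l t) = M.c i j l t)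
    (hσ' : ∀ i j l t, σ' (M.c i j l t) = M.c i j l t) (h : σ.comp σ' = RingHom.id κ) :
    (tauHom M hI σ hσ).comp (tauHom M hI σ' hσ') = RingHom.id _ := by
  ext f
  have hf : f = ⟨Phi M (tauCoord M f), tau_Phi_mem M _⟩ := Subtype.ext (tauCoord_spec M f).symm
  rw [RingHom.comp_apply, RingHom.id_apply]
  conv_lhs => rw [hf]
  rw [tauHom_Phi, tauHom_Phi]
  show Phi M (tauMap σ (tauMap σ' (tauCoord M f))) = f.1
  have : tauMap σ (tauMap σ' (tauCoord M f)) = tauCoord M f := by
    funext j
    simp only [tauMap, Polynomial.map_map, h, Polynomial.map_id]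
  rw [this, tauCoord_spec]

/-- the automorphism of `R` induced by `σ`. -/
def tauEquiv (M : OnePointModel κ F s) (hI : Indep M) (σ : κ ≃+* κ)
    (hσ : ∀ i j l t, σ (M.c i j l t) = M.c i j l t) : tauRing M ≃+* tauRing M :=
  have hσ' : ∀ i j l t, σ.symm (M.c i j l t) = M.c i j l t := fun i j l t => by
    rw [RingEquiv.symm_apply_eq, hσ]
  RingEquiv.ofRingHom (tauHom M hI (σ : κ →+* κ) hσ) (tauHom M hI (σ.symm : κ →+* κ) hσ')
    (tauHom_comp M hI _ _ hσ hσ' (by ext a; simp))
    (tauHom_comp M hI _ _ hσ' hσ (by ext a; simp))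

theorem tauEquiv_Phi (M : OnePointModel κ F s) (hI : Indep M) (σ : κ ≃+* κ)
    (hσ : ∀ i j l t, σ (M.c i j l t) = M.c i j l t) (P : Fin s.m → κ[X]) :
    tauEquiv M hI σ hσ ⟨Phi M P, tau_Phi_mem M P⟩
      = ⟨Phi M (tauMap (σ : κ →+* κ) P), tau_Phi_mem M _⟩ :=
  tauHom_Phi M hI (σ : κ →+* κ) hσ P

theorem tau_isFractionRing (M : OnePointModel κ F s) (hD : HasDenominators M) :
    IsFractionRing (tauRing M) F := by
  refine IsFractionRing.of_field (R := tauRing M) (K := F) fun z => ?_
  obtain ⟨g, hg0, hg, hgz⟩ := hD z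
  refine ⟨⟨g * z, hgz⟩, ⟨g, hg⟩, ?_⟩
  show z = (g * z) / g
  field_simp

/-- the automorphism of `F` induced by `σ`. -/
def tauField (M : OnePointModel κ F s) (hI : Indep M) (hD : HasDenominators M) (σ : κ ≃+* κ)
    (hσ : ∀ i j l t, σ (M.c i j l t) = M.c i j l t) : F ≃+* F :=
  haveI := tau_isFractionRing M hD
  IsFractionRing.ringEquivOfRingEquiv (K := F) (L := F) (tauEquiv M hI σ hσ)

theorem tauField_Phi (M : OnePointModel κ F s) (hI : Indep M) (hD : HasDenominators M)
    (σ : κ ≃+* κ) (hσ : ∀ i j l t, σ (M.c i j l t) = M.c i j l t) (P : Fin s.m → κ[X]) :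
    tauField M hI hD σ hσ (Phi M P) = Phi M (tauMap (σ : κ →+* κ) P) := by
  haveI := tau_isFractionRing M hD
  have h := IsFractionRing.ringEquivOfRingEquiv_algebraMap (K := F) (L := F)
    (tauEquiv M hI σ hσ) ⟨Phi M P, tau_Phi_mem M P⟩
  rw [tauEquiv_Phi] at h
  exact h

end

theorem stmtTau : StmtTau.{u, v} := by
  intro p κ F _ _ _ _ _ s hp M hI hD r hc
  haveI := Fact.mk hp
  haveI : ExpChar κ p := ExpChar.prime hp
  haveI : PerfectRing κ p := PerfectField.toPerfectRing p
  let σ : κ ≃+* κ := iterateFrobeniusEquiv κ p r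
  have hσ : ∀ i j l t, σ (M.c i j l t) = M.c i j l t := hc
  have hmem : ((tauField M hI hD σ hσ, σ) : RingAut F × RingAut κ) ∈ SemilinearAut κ F := by
    rw [SemilinearAut.mem_iff]
    intro a
    have h1 : ∀ b : κ, algebraMap κ F b = Phi M (Pi.single s.zero (C b)) := by
      intro b
      rw [tau_Phi_single, aeval_C, M.y_zero, mul_one]
    show tauField M hI hD σ hσ (algebraMap κ F a) = algebraMap κ F (σ a)
    rw [h1, h1, tauField_Phi, tauMap_single, Polynomial.map_C]
    rfl
  refine ⟨⟨(tauField M hI hD σ hσ, σ), hmem⟩, fun a => rfl, ?_, fun j => ?_⟩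
  · show tauField M hI hD σ hσ M.x = M.x
    have h1 : M.x = Phi M (Pi.single s.zero X) := by
      rw [tau_Phi_single, aeval_X, M.y_zero, mul_one]
    conv_lhs => rw [h1]
    rw [tauField_Phi, tauMap_single, Polynomial.map_X, ← h1]
  · show tauField M hI hD σ hσ (M.y j) = M.y j
    have h1 : M.y j = Phi M (Pi.single j 1) := by
      rw [tau_Phi_single, map_one, one_mul]
    conv_lhs => rw [h1]
    rw [tauField_Phi, tauMap_single, Polynomial.map_one, ← h1]

end Fermat.Agent.S27.Frob
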