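import Fermat.Agent.S27.Frob.Assemble
import Fermat.Agent.S27.Frob.Lang
import Fermat.Agent.S27.Frob.Curve
import Fermat.Agent.S27.Frob.Indep
import Fermat.Agent.S27.Frob.DenSep
import Fermat.Agent.S27.Frob.Tau
import Fermat.Agent.S27.Frob.Fix
import Fermat.Agent.S27.Frob.Count

/-!
# Project S27, block FROB: the final theorem of the block
-/

set_option autoImplicit false

namespace Fermat.Agent.S27.Frob

universe u v

/-- Block FROB: over `𝔽̄_p` a one point model gives the data of the abstract zeta argument. -/
theorem stmtFrob (hRR : StmtRR.{u, v}) : StmtFrob.{u, v} :=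
  stmtFrob_of hRR stmtCurve stmtIndep stmtDenSep stmtTau stmtFix (stmtCount stmtLang)

end Fermat.Agent.S27.Frob
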