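import Fermat.Agent.S27.Frob.Basic

/-!
# Project S27, block FROB: assembly of the pieces
-/

set_option autoImplicit false

noncomputable section

namespace Fermat.Agent.S27.Frob

open AlgebraicCurve

universe u v

section

variable {κ : Type u} {F : Type v} [Field κ] [Field F] [Algebra κ F] {s : Shape}

theorem domCongr_toPerm (G : SemilinearAut κ F) (D : Divisor κ F) :
    Finsupp.domCongr (MulAction.toPerm G : Equiv.Perm (Place κ F)) D = G • D := by
  rw [SemilinearAut.divisor_smul_def, Finsupp.domCongr_apply, Finsupp.equivMapDomain_eq_mapDomain]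
  rfl

theorem toPerm_pow (G : SemilinearAut κ F) (m : ℕ) :
    (MulAction.toPerm G : Equiv.Perm (Place κ F)) ^ m = MulAction.toPerm (G ^ m) :=
  (map_pow (MulAction.toPermHom (SemilinearAut κ F) (Place κ F)) G m).symm

end

/-- `StmtFrob` from the pieces. -/
theorem stmtFrob_of (hRR : StmtRR.{u, v}) (hCurve : StmtCurve.{u, v}) (hIndep : StmtIndep.{u, v})
    (hDenSep : StmtDenSep.{u, v}) (hTau : StmtTau.{u, v}) (hFix : StmtFix.{u, v})
    (hCount : StmtCount.{u, v}) : StmtFrob.{u, v} := by
  intro p κ F _ _ _ _ _ s hp hκ hC M
  have hP := hRR κ F hC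
  have hF := hCurve κ F hC hP
  obtain ⟨hDen, hSep⟩ := hDenSep κ F s hF M
  obtain ⟨r, hr0, hr⟩ := exists_common_pow hκ 1
    (fun x : Fin s.m × Fin s.m × Fin s.m × Fin s.T => M.c x.1 x.2.1 x.2.2.1 x.2.2.2)
  rw [one_mul] at hr
  obtain ⟨G, hG⟩ := hTau p κ F s hp M (hIndep κ F s M) hDen r
    (fun i j l t => hr (i, j, l, t))
  obtain ⟨W, hW⟩ := hF.rr
  have hq : 1 < p ^ r := Nat.one_lt_pow hr0.ne' hp.one_lt
  have hqm : ∀ m : ℕ, 0 < m → 1 < (p ^ r) ^ m := fun m hm => Nat.one_lt_pow hm.ne' hq
  refine ⟨{ φ := MulAction.toPerm G
            Prin := Divisor.principal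
            l := ell
            q := p ^ r
            g := genusFF κ F
            W := W
            s0 := M.inf
            one_lt_q := hq
            deg_prin := fun D hD => by rw [hF.deg_eq]; exact hF.deg_principal D hD
            push_prin := fun D hD => by
              rw [domCongr_toPerm]; exact SemilinearAut.smul_mem_principal G hD
            finite_fix := fun m hm => by
              have := (hFix κ F s hC.toBaseHyp M hSep (G ^ m) ((p ^ r) ^ m) (hqm m hm)
                (hG.pow m)).2.1
              rw [toPerm_pow]
              exact this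
            exists_fix := fun v => by
              obtain ⟨m, hm, h⟩ := (hFix κ F s hC.toBaseHyp M hSep G (p ^ r) hq hG).2.2
                (fun a => by
                  obtain ⟨n, hn, h⟩ := exists_common_pow hκ r (fun _ : Unit => a)
                  exact ⟨n, hn, by rw [← pow_mul]; exact h ()⟩) v
              exact ⟨m, hm, by rw [toPerm_pow]; exact h⟩
            fix_s0 := (hFix κ F s hC.toBaseHyp M hSep G (p ^ r) hq hG).1
            l_congr := hF.ell_congr
            l_push := fun D => by rw [domCongr_toPerm]; exact hF.ell_smul G D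
            l_pos_iff := hF.ell_pos_iff
            rr := fun D => by rw [hF.deg_eq]; exact hW D
            count := fun m hm D hD => by
              rw [toPerm_pow, domCongr_toPerm] at hD
              have := hCount p κ F hp hκ hP.finite_L hF (G ^ m) ((p ^ r) ^ m)
                ⟨r * m, Nat.mul_pos hr0 hm, (pow_mul p r m).symm⟩ (hG.pow m).base D hD
              rw [toPerm_pow, pow_mul]
              simp only [domCongr_toPerm]
              exact this }, rfl, rfl, r, rfl⟩

end Fermat.Agent.S27.Frob
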