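import Fermat.Agent.S27.Frob.Defs

/-!
# Project S27, block FROB: small shared lemmas
-/

set_option autoImplicit false

noncomputable section

namespace Fermat.Agent.S27.Frob

open AlgebraicCurve

universe u v

/-- if `a ^ (p ^ n) = a` then `a ^ (p ^ (n * t)) = a`. -/
theorem pow_pow_mul_eq {κ : Type*} [Monoid κ] {p n : ℕ} {a : κ} (h : a ^ (p ^ n) = a) (t : ℕ) :
    a ^ (p ^ (n * t)) = a := by
  induction t with
  | zero => simp
  | succ t ih => rw [Nat.mul_succ, pow_add, pow_mul, ih, h]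

/-- a finite family of elements of `𝔽̄_p` lies in a common finite field `𝔽_{p^(k n)}`. -/
theorem exists_common_pow {κ : Type*} [Monoid κ] {p : ℕ}
    (hκ : ∀ a : κ, ∃ n : ℕ, 0 < n ∧ a ^ (p ^ n) = a) (k : ℕ) {ι : Type*} [Finite ι]
    (a : ι → κ) : ∃ n : ℕ, 0 < n ∧ ∀ i, a i ^ (p ^ (k * n)) = a i := by
  classical
  cases nonempty_fintype ι
  choose N hN0 hN using hκ
  refine ⟨∏ i, N (a i), Finset.prod_pos fun i _ => hN0 _, fun i => ?_⟩
  have : k * ∏ j, N (a j) = N (a i) * (k * ∏ j ∈ Finset.univ.erase i, N (a j)) := by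
    rw [← Finset.mul_prod_erase Finset.univ (fun j => N (a j)) (Finset.mem_univ i)]
    ring
  rw [this]
  exact pow_pow_mul_eq (hN _) _

/-- `#𝔽_Q = Q`. -/
theorem card_pow_eq_self {κ : Type*} [Field κ] [IsAlgClosed κ] (p : ℕ) [CharP κ p]
    (hp : p.Prime) (Q : ℕ) (hQ : ∃ k : ℕ, 0 < k ∧ Q = p ^ k) :
    Nat.card {a : κ // a ^ Q = a} = Q := by
  obtain ⟨k, hk, rfl⟩ := hQ
  have hsep : (Polynomial.X ^ (p ^ k) - Polynomial.X : Polynomial κ).Separable :=
    galois_poly_separable p (p ^ k) (dvd_pow_self p hk.ne')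
  have hdeg : (Polynomial.X ^ (p ^ k) - Polynomial.X : Polynomial κ).natDegree = p ^ k :=
    FiniteField.X_pow_card_pow_sub_X_natDegree_eq κ hk.ne' hp.one_lt
  have h := Polynomial.card_rootSet_eq_natDegree (K := κ) hsep (IsAlgClosed.splits _)
  rw [hdeg, ← Nat.card_eq_fintype_card] at h
  refine Eq.trans (Nat.card_congr (Equiv.subtypeEquivRight fun a => ?_)) h
  rw [Polynomial.mem_rootSet]
  constructor
  · intro ha
    refine ⟨FiniteField.X_pow_card_pow_sub_X_ne_zero κ hk.ne' hp.one_lt, ?_⟩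
    simp [ha]
  · rintro ⟨-, ha⟩
    simpa [sub_eq_zero] using ha

/-- `#𝔽_Q^* = Q - 1`. -/
theorem card_pow_eq_self_ne_zero {κ : Type*} [Field κ] [IsAlgClosed κ] (p : ℕ) [CharP κ p]
    (hp : p.Prime) (Q : ℕ) (hQ : ∃ k : ℕ, 0 < k ∧ Q = p ^ k) :
    Nat.card {a : κ // a ≠ 0 ∧ a ^ Q = a} = Q - 1 := by
  classical
  have h := card_pow_eq_self (κ := κ) p hp Q hQ
  have hQ0 : Q ≠ 0 := by
    obtain ⟨k, -, rfl⟩ := hQ
    exact pow_ne_zero _ hp.ne_zero
  have hfin : Finite {a : κ // a ^ Q = a} := Nat.finite_of_card_ne_zero (by rw [h]; exact hQ0)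
  have e : {a : κ // a ≠ 0 ∧ a ^ Q = a} ≃
      {b : {a : κ // a ^ Q = a} // b ≠ ⟨0, zero_pow hQ0⟩} :=
    { toFun := fun a => ⟨⟨a.1, a.2.2⟩, fun h => a.2.1 (congrArg Subtype.val h)⟩
      invFun := fun b => ⟨b.1.1, fun h => b.2 (Subtype.ext h), b.1.2⟩
      left_inv := fun _ => rfl
      right_inv := fun _ => rfl }
  cases nonempty_fintype {a : κ // a ^ Q = a}
  rw [Nat.card_congr e, Nat.card_eq_fintype_card, Fintype.card_subtype_compl,
    Fintype.card_subtype_eq, ← Nat.card_eq_fintype_card, h]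

section

variable {κ : Type u} {F : Type v} [Field κ] [Field F] [Algebra κ F] {s : Shape}

theorem IsFrob.pow {M : OnePointModel κ F s} {G : SemilinearAut κ F} {Q : ℕ} (h : IsFrob M G Q)
    (m : ℕ) : IsFrob M (G ^ m) (Q ^ m) := by
  induction m with
  | zero => exact ⟨fun a => by simp, by simp, fun j => by simp⟩
  | succ m ih =>
    refine ⟨fun a => ?_, ?_, fun j => ?_⟩
    · rw [pow_succ, SemilinearAut.baseAut_mul, RingAut.mul_apply, h.base, ih.base, ← pow_mul,
        pow_succ, mul_comm]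
    · rw [pow_succ, SemilinearAut.toRingAut_mul, RingAut.mul_apply, h.fix_x, ih.fix_x]
    · rw [pow_succ, SemilinearAut.toRingAut_mul, RingAut.mul_apply, h.fix_y, ih.fix_y]

/-- `0 ≤ ord_v f` iff `f` lies in the valuation ring (recall `ord 0 = 0`). -/
theorem ord_nonneg_iff (v : Place κ F) (f : F) : 0 ≤ v.ord f ↔ v.adicValuation f ≤ 1 := by
  rw [v.adicValuation_le_one_iff]
  constructor
  · exact Or.inr
  · rintro (rfl | h)
    · simp
    · exact h

theorem ord_algebraMap (v : Place κ F) (a : κ) : v.ord (algebraMap κ F a) = 0 := by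
  rcases eq_or_ne a 0 with rfl | ha
  · simp
  have h1 : 0 ≤ v.ord (algebraMap κ F a) :=
    (ord_nonneg_iff v _).2 (v.adicValuation_algebraMap_le_one a)
  have h2 : 0 ≤ v.ord (algebraMap κ F a⁻¹) :=
    (ord_nonneg_iff v _).2 (v.adicValuation_algebraMap_le_one a⁻¹)
  rw [map_inv₀, v.ord_inv] at h2
  omega

end

end Fermat.Agent.S27.Frob
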