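import Fermat.Agent.S27.Model
import Fermat.Prelude.Def_AlgebraicCurve_BaseChangeGalois

/-!
# Project S27, block FROB: interface

`κ = 𝔽̄_p`, `F / κ` a function field with `CurveHyp`, `M` a one point model.
The block produces `AZ.AZData (Place κ F)`; the Frobenius is an element `G` of the Prelude group
`AlgebraicCurve.SemilinearAut κ F` (which acts on `F`, on places and on divisors) with
`baseAut G a = a ^ q`, `G x = x`, `G y_j = y_j`.

The pieces of the block are the `Prop`-valued statements `Stmt*` below; `Frob/Assemble.lean` derives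
`StmtFrob` from them.
-/

set_option autoImplicit false

noncomputable section

namespace Fermat.Agent.S27.Frob

open AlgebraicCurve

universe u v

section defs

variable {κ : Type u} {F : Type v} [Field κ] [Field F] [Algebra κ F] {s : Shape}

/-- `f` is regular outside `inf`. -/
def Reg (M : OnePointModel κ F s) (f : F) : Prop := ∀ v : Place κ F, v ≠ M.inf → 0 ≤ v.ord f

/-- `P ↦ ∑_j P_j(x) y_j`. -/
def Phi (M : OnePointModel κ F s) (P : Fin s.m → Polynomial κ) : F :=
  ∑ j, Polynomial.aeval M.x (P j) * M.y j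

/-- the `y_j` are linearly independent over `κ[x]` (and `x` is transcendental). -/
def Indep (M : OnePointModel κ F s) : Prop := ∀ P : Fin s.m → Polynomial κ, Phi M P = 0 → P = 0

/-- `F = Frac R`. -/
def HasDenominators (M : OnePointModel κ F s) : Prop :=
  ∀ f : F, ∃ g : F, g ≠ 0 ∧ Reg M g ∧ Reg M (g * f)

/-- `R` separates the finite places. -/
def Separates (M : OnePointModel κ F s) : Prop :=
  ∀ v w : Place κ F, v ≠ M.inf → w ≠ M.inf → v ≠ w → ∃ f : F, Reg M f ∧ 0 < v.ord f ∧ w.ord f = 0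

/-- `G` is the `Q`-Frobenius of the model `M`. -/
structure IsFrob (M : OnePointModel κ F s) (G : SemilinearAut κ F) (Q : ℕ) : Prop where
  base : ∀ a : κ, SemilinearAut.baseAut G a = a ^ Q
  fix_x : SemilinearAut.toRingAut G M.x = M.x
  fix_y : ∀ j, SemilinearAut.toRingAut G (M.y j) = M.y j

/-- The general facts on `F / κ` used by the block. -/
structure CurveFacts (κ : Type u) (F : Type v) [Field κ] [Field F] [Algebra κ F] : Prop where
  deg_eq : ∀ D : Divisor κ F, AZ.degHom (Place κ F) D = Divisor.degree D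
  exists_div : ∀ f : F, f ≠ 0 → ∃ D : Divisor κ F, ∀ v : Place κ F, D v = v.ord f
  deg_principal : ∀ D : Divisor κ F, D ∈ Divisor.principal (K := κ) (F := F) →
    Divisor.degree D = 0
  ell_congr : ∀ D D' : Divisor κ F, D - D' ∈ Divisor.principal (K := κ) (F := F) → ell D = ell D'
  ell_smul : ∀ (G : SemilinearAut κ F) (D : Divisor κ F), ell (G • D) = ell D
  ell_pos_iff : ∀ D : Divisor κ F,
    0 < ell D ↔ ∃ E : Divisor κ F, 0 ≤ E ∧ E - D ∈ Divisor.principal (K := κ) (F := F)
  ell_eq_zero : ∀ D : Divisor κ F, Divisor.degree D < 0 → ell D = 0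
  rr : ∃ W : Divisor κ F, ∀ D : Divisor κ F,
    (ell D : ℤ) - (ell (W - D) : ℤ) = Divisor.degree D + 1 - (genusFF κ F : ℤ)
  const : ∀ f : F, f ≠ 0 → (∀ v : Place κ F, v.ord f = 0) → ∃ a : κ, f = algebraMap κ F a

end defs

/-! ## The pieces -/

/-- LANG: the semilinear Lang lemma over `𝔽̄_p`. -/
def StmtLang : Prop :=
  ∀ (p : ℕ) (κ : Type u) (V : Type v) [Field κ] [IsAlgClosed κ] [CharP κ p] [AddCommGroup V]
    [Module κ V] [Module.Finite κ V], p.Prime → (∀ a : κ, ∃ n : ℕ, 0 < n ∧ a ^ (p ^ n) = a) →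
    ∀ Q : ℕ, (∃ k : ℕ, 0 < k ∧ Q = p ^ k) → ∀ T : V →+ V,
      (∀ (a : κ) (w : V), T (a • w) = a ^ Q • T w) → Function.Injective T →
        Nat.card {w : V // T w = w} = Q ^ Module.finrank κ V

/-- CURVE: general facts. -/
def StmtCurve : Prop :=
  ∀ (κ : Type u) (F : Type v) [Field κ] [Field F] [Algebra κ F], CurveHyp κ F → RRPackage κ F →
    CurveFacts κ F

/-- INDEP. -/
def StmtIndep : Prop :=
  ∀ (κ : Type u) (F : Type v) [Field κ] [Field F] [Algebra κ F] (s : Shape)
    (M : OnePointModel κ F s), Indep M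

/-- DENSEP: consequences of Riemann-Roch for the ring `R`. -/
def StmtDenSep : Prop :=
  ∀ (κ : Type u) (F : Type v) [Field κ] [Field F] [Algebra κ F] (s : Shape), CurveFacts κ F →
    ∀ M : OnePointModel κ F s, HasDenominators M ∧ Separates M

/-- TAU: construction of the Frobenius. -/
def StmtTau : Prop :=
  ∀ (p : ℕ) (κ : Type u) (F : Type v) [Field κ] [Field F] [Algebra κ F] [IsAlgClosed κ]
    [CharP κ p] (s : Shape), p.Prime → ∀ M : OnePointModel κ F s, Indep M → HasDenominators M →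
    ∀ r : ℕ, (∀ i j l t, M.c i j l t ^ (p ^ r) = M.c i j l t) →
      ∃ G : SemilinearAut κ F, IsFrob M G (p ^ r)

/-- FIX: fixed places of the Frobenius. -/
def StmtFix : Prop :=
  ∀ (κ : Type u) (F : Type v) [Field κ] [Field F] [Algebra κ F] (s : Shape), BaseHyp κ F →
    ∀ M : OnePointModel κ F s, Separates M → ∀ (G : SemilinearAut κ F) (Q : ℕ), 1 < Q →
      IsFrob M G Q →
        G • M.inf = M.inf ∧ {v : Place κ F | G • v = v}.Finite ∧
          ((∀ a : κ, ∃ n : ℕ, 0 < n ∧ a ^ (Q ^ n) = a) →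
            ∀ v : Place κ F, ∃ m : ℕ, 0 < m ∧ G ^ m • v = v)

/-- COUNT: stable effective divisors in a stable class. -/
def StmtCount : Prop :=
  ∀ (p : ℕ) (κ : Type u) (F : Type v) [Field κ] [Field F] [Algebra κ F] [IsAlgClosed κ]
    [CharP κ p], p.Prime → (∀ a : κ, ∃ n : ℕ, 0 < n ∧ a ^ (p ^ n) = a) →
    (∀ D : Divisor κ F, Module.Finite κ (riemannRochSpace D)) → CurveFacts κ F →
    ∀ (G : SemilinearAut κ F) (Q : ℕ), (∃ k : ℕ, 0 < k ∧ Q = p ^ k) →
      (∀ a : κ, SemilinearAut.baseAut G a = a ^ Q) →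
      ∀ D : Divisor κ F, G • D - D ∈ Divisor.principal (K := κ) (F := F) →
        (Q - 1) * Nat.card {E : Divisor κ F //
            0 ≤ E ∧ G • E = E ∧ E - D ∈ Divisor.principal (K := κ) (F := F)}
          = Q ^ ell D - 1

end Fermat.Agent.S27.Frob
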